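import Mathlib
import Fermat.Prelude.Def_FormalHecke_Eigensystem
import Fermat.Prelude.Def_FLTPrelim_Modularity
import Fermat.Prelude.Def_CuspForm_IntegralLattice

/-!
# Formal Hecke recursions (helper file for S49)

Pure sequence lemmas: the per-prime Hecke relations imply multiplicativity and the
prime-power recursions, and a sequence satisfying homogeneous per-prime relations with
vanishing first coefficient vanishes at every positive index.
-/

set_option autoImplicit false

namespace Fermat.Agent.S49

open FormalHecke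

section Formal

variable {R : Type*} [CommRing R]

/-- Per-prime Hecke relations with prescribed eigenvalues `lam ℓ` (no normalisation). -/
def HeckeRel (e lam a : ℕ → R) : Prop :=
  ∀ ℓ : ℕ, ℓ.Prime → ∀ n : ℕ,
    a (ℓ * n) + e ℓ * (if ℓ ∣ n then a (n / ℓ) else 0) = lam ℓ * a n

theorem isEigensystem_iff_heckeRel (e a : ℕ → R) :
    IsEigensystem e a ↔ a 1 = 1 ∧ HeckeRel e a a := Iff.rfl

/-- The relations in the shape produced by `ModularForm.coeffHeckeT` / `coeffHeckeU`
(index `n * ℓ`, the `if` outside the product) give `HeckeRel`. -/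
theorem heckeRel_of_mul_right {e lam a : ℕ → R}
    (h : ∀ ℓ : ℕ, ℓ.Prime → ∀ n : ℕ,
      a (n * ℓ) + (if ℓ ∣ n then e ℓ * a (n / ℓ) else 0) = lam ℓ * a n) :
    HeckeRel e lam a := by
  intro ℓ hℓ n
  have := h ℓ hℓ n
  rw [mul_comm n ℓ] at this
  rw [← this]
  split_ifs <;> simp

/-- A sequence satisfying homogeneous Hecke relations whose first coefficient vanishes
vanishes at every positive index. -/
theorem heckeRel_eq_zero_of_one {e lam a : ℕ → R} (h : HeckeRel e lam a) (h1 : a 1 = 0) :
    ∀ n : ℕ, 0 < n → a n = 0 := by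
  intro n
  induction n using Nat.strong_induction_on with
  | _ n ih =>
    intro hn
    rcases Nat.lt_or_ge n 2 with hlt | hge
    · have : n = 1 := by omega
      rw [this]; exact h1
    · have hn1 : n ≠ 1 := by omega
      have hp : (Nat.minFac n).Prime := Nat.minFac_prime hn1
      obtain ⟨m, hm⟩ := Nat.minFac_dvd n
      have hℓ2 : 2 ≤ Nat.minFac n := hp.two_le
      have hmpos : 0 < m := by
        rcases Nat.eq_zero_or_pos m with h0 | h0
        · rw [h0, mul_zero] at hm; omega
        · exact h0
      have hmlt : m < n := by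
        calc m = 1 * m := (one_mul m).symm
          _ < Nat.minFac n * m := Nat.mul_lt_mul_of_pos_right (by omega) hmpos
          _ = n := hm.symm
      have hrel := h (Nat.minFac n) hp m
      rw [← hm, ih m hmlt hmpos, mul_zero] at hrel
      by_cases hdvd : Nat.minFac n ∣ m
      · rw [if_pos hdvd] at hrel
        have hq : 0 < m / Nat.minFac n := Nat.div_pos (Nat.le_of_dvd hmpos hdvd) hp.pos
        have hqlt : m / Nat.minFac n < n := lt_of_le_of_lt (Nat.div_le_self _ _) hmlt
        rw [ih _ hqlt hq, mul_zero, add_zero] at hrel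
        exact hrel
      · rw [if_neg hdvd, mul_zero, add_zero] at hrel
        exact hrel

/-- Prime-power recursion from the per-prime relations. -/
theorem isEigensystem_prime_pow {e a : ℕ → R} (h : IsEigensystem e a) (ℓ r : ℕ) (hℓ : ℓ.Prime) :
    a (ℓ ^ (r + 2)) = a ℓ * a (ℓ ^ (r + 1)) - e ℓ * a (ℓ ^ r) := by
  have hrel := h.2 ℓ hℓ (ℓ ^ (r + 1))
  have hdvd : ℓ ∣ ℓ ^ (r + 1) := dvd_pow_self ℓ (Nat.succ_ne_zero r)
  rw [if_pos hdvd] at hrel
  have hdiv : ℓ ^ (r + 1) / ℓ = ℓ ^ r := by
    rw [pow_succ, Nat.mul_div_cancel _ hℓ.pos]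
  rw [hdiv] at hrel
  have hpow : ℓ * ℓ ^ (r + 1) = ℓ ^ (r + 2) := by ring
  rw [hpow] at hrel
  rw [← hrel]; ring

/-- Multiplicativity from the per-prime relations. -/
theorem isEigensystem_mul_of_coprime {e a : ℕ → R} (h : IsEigensystem e a) :
    ∀ m n : ℕ, m.Coprime n → a (m * n) = a m * a n := by
  intro m
  induction m using Nat.strong_induction_on with
  | _ m ih =>
    intro n hmn
    rcases Nat.lt_or_ge m 2 with hlt | hge
    · interval_cases m
      · -- m = 0, so n = 1
        have hn : n = 1 := by simpa using hmn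
        rw [hn, mul_one, h.1, mul_one]
      · rw [one_mul, h.1, one_mul]
    · have hm1 : m ≠ 1 := by omega
      have hp : (Nat.minFac m).Prime := Nat.minFac_prime hm1
      set ℓ := Nat.minFac m with hℓdef
      obtain ⟨m', hm'⟩ := Nat.minFac_dvd m
      have hm'pos : 0 < m' := by
        rcases Nat.eq_zero_or_pos m' with h0 | h0
        · rw [h0, mul_zero] at hm'; omega
        · exact h0
      have hm'lt : m' < m := by
        calc m' = 1 * m' := (one_mul m').symm
          _ < ℓ * m' := Nat.mul_lt_mul_of_pos_right (by have := hp.two_le; omega) hm'pos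
          _ = m := hm'.symm
      have hℓn : ¬ ℓ ∣ n := by
        intro hdvd
        have h1 : ℓ ∣ Nat.gcd m n := Nat.dvd_gcd (Nat.minFac_dvd m) hdvd
        rw [hmn] at h1
        exact hp.one_lt.ne' (Nat.dvd_one.mp h1)
      have hcop' : m'.Coprime n := Nat.Coprime.coprime_dvd_left ⟨ℓ, by rw [hm']; ring⟩ hmn
      have hrel1 := h.2 ℓ hp (m' * n)
      have hrel2 := h.2 ℓ hp m'
      have hmn_eq : m * n = ℓ * (m' * n) := by rw [hm']; ring
      rw [hmn_eq, hm']
      rw [ih m' hm'lt n hcop'] at hrel1
      by_cases hdvd : ℓ ∣ m'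
      · have hdvd' : ℓ ∣ m' * n := Dvd.dvd.mul_right hdvd n
        rw [if_pos hdvd'] at hrel1
        rw [if_pos hdvd] at hrel2
        have hdiv : m' * n / ℓ = m' / ℓ * n := by
          obtain ⟨k, hk⟩ := hdvd
          rw [hk, Nat.mul_div_cancel_left _ hp.pos, mul_assoc, Nat.mul_div_cancel_left _ hp.pos]
        have hq_lt : m' / ℓ < m := lt_of_le_of_lt (Nat.div_le_self _ _) hm'lt
        have hq_cop : (m' / ℓ).Coprime n :=
          Nat.Coprime.coprime_dvd_left (Nat.div_dvd_of_dvd hdvd) hcop'
        rw [hdiv, ih _ hq_lt n hq_cop] at hrel1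
        have e1 : a (ℓ * (m' * n)) = a ℓ * (a m' * a n) - e ℓ * (a (m' / ℓ) * a n) := by
          rw [← hrel1]; ring
        have e2 : a (ℓ * m') = a ℓ * a m' - e ℓ * a (m' / ℓ) := by
          rw [← hrel2]; ring
        rw [e1, e2]; ring
      · have hdvd' : ¬ ℓ ∣ m' * n := by
          intro hd
          rcases (Nat.Prime.dvd_mul hp).mp hd with h1 | h1
          · exact hdvd h1
          · exact hℓn h1
        rw [if_neg hdvd', mul_zero, add_zero] at hrel1
        rw [if_neg hdvd, mul_zero, add_zero] at hrel2
        rw [hrel1, hrel2]; ring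

/-- The per-prime relations imply the recursive description. -/
theorem isEigensystem_isRecursive {e a : ℕ → R} (h : IsEigensystem e a) : IsRecursive e a :=
  ⟨h.1, isEigensystem_mul_of_coprime h, fun ℓ r hℓ => isEigensystem_prime_pow h ℓ r hℓ⟩

end Formal

section NormalizedEigenform

open ModularFormClass CongruenceSubgroup

/-- The weight-two `Γ₀(N)` "character": `ℓ` away from the level, `0` at the level. -/
noncomputable def levelChar (N : ℕ) (ℓ : ℕ) : ℂ := if ℓ ∣ N then 0 else (ℓ : ℂ)

/-- A weight-two cusp form whose `q`-coefficients form a formal eigensystem for the level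
character is a normalised eigenform in the sense of the prelude. -/
theorem isNormalizedEigenform_of_isEigensystem {N : ℕ} (f : CuspForm (Gamma0 N) 2)
    (h : IsEigensystem (levelChar N) (fun n => qCoeff f n)) : f.IsNormalizedEigenform where
  qCoeff_one := h.1
  qCoeff_mul_of_coprime := fun m n hmn => isEigensystem_mul_of_coprime h m n hmn
  qCoeff_prime_pow_of_not_dvd := fun p r hp hpN => by
    have := isEigensystem_prime_pow h p r hp
    simpa [levelChar, hpN] using this
  qCoeff_prime_pow_of_dvd := fun p r hp hpN => by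
    have := isEigensystem_prime_pow h p r hp
    simpa [levelChar, hpN] using this

end NormalizedEigenform

section Bridge

open EisensteinWeightOne

/-- The Eisenstein factor is `1` modulo `3` (indeed modulo `6`). -/
theorem e1Chi3In_int_eq :
    e1Chi3In ℤ = 1 + PowerSeries.C (6 : ℤ) *
      PowerSeries.mk (fun n => if n = 0 then 0 else sigmaChi n) := by
  ext n
  simp only [e1Chi3In, e1Chi3, PowerSeries.coeff_map, PowerSeries.coeff_mk, map_add,
    PowerSeries.coeff_one, PowerSeries.coeff_C_mul, Int.coe_castRingHom, Int.cast_id]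
  by_cases hn : n = 0
  · simp [hn]
  · simp [hn]

/-- Coefficients of the bridge product agree with the original sequence modulo `3`. -/
theorem three_dvd_coeff_bridgeProduct_sub (a : ℕ → ℤ) (n : ℕ) :
    (3 : ℤ) ∣ (bridgeProduct a).coeff n - a n := by
  have h : bridgeProduct a = PowerSeries.mk a + PowerSeries.C (6 : ℤ) *
      (PowerSeries.mk a * PowerSeries.mk (fun n => if n = 0 then 0 else sigmaChi n)) := by
    rw [bridgeProduct, e1Chi3In_int_eq]; ring
  rw [h, map_add, PowerSeries.coeff_mk, PowerSeries.coeff_C_mul, add_sub_cancel_left]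
  exact Dvd.dvd.mul_right (by norm_num) _

end Bridge

end Fermat.Agent.S49
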