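-- T-S49 (helper3): analytic / q-expansion bridge for the Deligne-Serre lifting lemma.
-- Everything that touches `CuspForm`, `heckeTLin`, `heckeULin`, `qExpansion` lives here, so the
-- rest of the proof can work with plain coefficient sequences.
import Mathlib
import Fermat.Prelude.Def_CuspForm_IntegralLattice
import Fermat.Prelude.Def_CuspForm_HeckeAlgebra
import Fermat.Prelude.Def_FLTPrelim_Modularity
import Fermat.Prelude.Thm_ModularFormClass_qCoeff_heckeT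
import Fermat.Prelude.Thm_ModularFormClass_qCoeff_heckeU
import Fermat.Prelude.Thm_CongruenceSubgroup_one_mem_strictPeriods_Gamma0
import Fermat.Agent.S49.Formal

set_option autoImplicit false

open CuspForm CongruenceSubgroup ModularFormClass UpperHalfPlane

namespace Fermat.Agent.S49

variable {N : ℕ}

/-! ### (Q1) linearity of `qCoeff` on cusp forms -/

theorem qCoeff_smul (c : ℂ) (f : CuspForm (Gamma0 N) 2) (n : ℕ) :
    qCoeff ⇑(c • f) n = c * qCoeff ⇑f n := by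
  unfold qCoeff
  rw [show (⇑(c • f) : ℍ → ℂ) = c • ⇑f from rfl,
    ModularForm.qExpansion_smul one_pos (one_mem_strictPeriods_Gamma0 N) c f]
  simp

theorem qCoeff_add (f g : CuspForm (Gamma0 N) 2) (n : ℕ) :
    qCoeff ⇑(f + g) n = qCoeff ⇑f n + qCoeff ⇑g n := by
  unfold qCoeff
  rw [show (⇑(f + g) : ℍ → ℂ) = ⇑f + ⇑g from rfl,
    ModularForm.qExpansion_add one_pos (one_mem_strictPeriods_Gamma0 N) f g]
  simp

theorem qCoeff_sub (f g : CuspForm (Gamma0 N) 2) (n : ℕ) :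
    qCoeff ⇑(f - g) n = qCoeff ⇑f n - qCoeff ⇑g n := by
  unfold qCoeff
  rw [show (⇑(f - g) : ℍ → ℂ) = ⇑f - ⇑g from rfl,
    ModularForm.qExpansion_sub one_pos (one_mem_strictPeriods_Gamma0 N) f g]
  simp

theorem qCoeff_zero_form (n : ℕ) : qCoeff ⇑(0 : CuspForm (Gamma0 N) 2) n = 0 := by
  unfold qCoeff
  rw [show (⇑(0 : CuspForm (Gamma0 N) 2) : ℍ → ℂ) = 0 from rfl, qExpansion_zero]
  simp

theorem qCoeff_neg (f : CuspForm (Gamma0 N) 2) (n : ℕ) :
    qCoeff ⇑(-f) n = -qCoeff ⇑f n := by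
  have h := qCoeff_sub (0 : CuspForm (Gamma0 N) 2) f n
  rwa [zero_sub, qCoeff_zero_form, zero_sub] at h

/-- The coefficient map, as a `ℂ`-linear map to sequences. -/
noncomputable def qCoeffLin (N : ℕ) : CuspForm (Gamma0 N) 2 →ₗ[ℂ] (ℕ → ℂ) where
  toFun f n := qCoeff ⇑f n
  map_add' f g := funext fun n => qCoeff_add f g n
  map_smul' c f := funext fun n => qCoeff_smul c f n

@[simp] theorem qCoeffLin_apply (f : CuspForm (Gamma0 N) 2) (n : ℕ) :
    qCoeffLin N f n = qCoeff ⇑f n := rfl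

theorem qCoeff_zsmul (c : ℤ) (f : CuspForm (Gamma0 N) 2) (n : ℕ) :
    qCoeff ⇑(c • f) n = (c : ℂ) * qCoeff ⇑f n := by
  have h := congrFun (map_zsmul (qCoeffLin N) c f) n
  simpa using h

theorem qCoeff_nsmul (c : ℕ) (f : CuspForm (Gamma0 N) 2) (n : ℕ) :
    qCoeff ⇑(c • f) n = (c : ℂ) * qCoeff ⇑f n := by
  have h := congrFun (map_nsmul (qCoeffLin N) c f) n
  simpa using h

theorem qCoeff_zero_index (f : CuspForm (Gamma0 N) 2) : qCoeff ⇑f 0 = 0 :=
  CuspFormClass.qExpansion_coeff_zero f one_pos (one_mem_strictPeriods_Gamma0 N)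

/-! ### (Q2) a cusp form is determined by its `q`-coefficients -/

theorem eq_zero_of_forall_qCoeff_eq_zero (f : CuspForm (Gamma0 N) 2)
    (h : ∀ n, qCoeff ⇑f n = 0) : f = 0 := by
  have hΓ := one_mem_strictPeriods_Gamma0 N
  have : Fact (IsCusp OnePoint.infty
      (Subgroup.map (Matrix.SpecialLinearGroup.mapGL ℝ) (Gamma0 N))) :=
    ⟨Subgroup.isCusp_of_mem_strictPeriods one_pos hΓ⟩
  have h0 : qExpansion 1 ⇑f = 0 := by
    ext n
    simpa [qCoeff] using h n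
  have := (qExpansion_eq_zero_iff one_pos
    (SlashInvariantFormClass.periodic_comp_ofComplex f hΓ) (ModularFormClass.holo f)
    (ModularFormClass.bdd_at_infty f)).mp h0
  exact DFunLike.coe_injective this

theorem eq_of_forall_qCoeff_eq (f g : CuspForm (Gamma0 N) 2)
    (h : ∀ n, qCoeff ⇑f n = qCoeff ⇑g n) : f = g := by
  rw [← sub_eq_zero]
  apply eq_zero_of_forall_qCoeff_eq_zero
  intro n
  rw [qCoeff_sub, h n, sub_self]

theorem qCoeffLin_injective (N : ℕ) : Function.Injective (qCoeffLin N) :=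
  fun f g h => eq_of_forall_qCoeff_eq f g fun n => congrFun h n

/-! ### (Q3) `q`-coefficients of Hecke operators -/

theorem qCoeff_heckeTLin {ℓ : ℕ} (hℓ : ℓ.Prime) (hℓN : ¬ ℓ ∣ N) (f : CuspForm (Gamma0 N) 2)
    (n : ℕ) :
    qCoeff ⇑(CuspForm.heckeTLin 2 hℓ hℓN f) n =
      qCoeff ⇑f (n * ℓ) + if ℓ ∣ n then (ℓ : ℂ) * qCoeff ⇑f (n / ℓ) else 0 := by
  rw [CuspForm.coe_heckeTLin_apply,
    ModularFormClass.qCoeff_heckeT f (one_mem_strictPeriods_Gamma0 N) hℓ.ne_zero n,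
    ModularForm.coeffHeckeT_apply]
  norm_num

theorem qCoeff_heckeULin [NeZero N] {q : ℕ} (hq : q.Prime) (hqN : q ∣ N)
    (f : CuspForm (Gamma0 N) 2) (n : ℕ) :
    qCoeff ⇑(CuspForm.heckeULin 2 hqN f) n = qCoeff ⇑f (n * q) := by
  rw [CuspForm.coe_heckeULin_apply,
    ModularFormClass.qCoeff_heckeU f (one_mem_strictPeriods_Gamma0 N) hq.ne_zero n,
    ModularForm.coeffHeckeU_apply]

/-! ### (Q4) the integral lattice -/

theorem mem_qIntegralSet_iff (f : CuspForm (Gamma0 N) 2) :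
    f ∈ qIntegralSet N ↔ ∀ n : ℕ, ∃ m : ℤ, (m : ℂ) = qCoeff ⇑f n := by
  simp only [qIntegralSet, Set.mem_ofPred_eq, Subring.mem_bot]

theorem heckeTLin_mem_qIntegralSet {ℓ : ℕ} (hℓ : ℓ.Prime) (hℓN : ¬ ℓ ∣ N)
    {f : CuspForm (Gamma0 N) 2} (hf : f ∈ qIntegralSet N) :
    CuspForm.heckeTLin 2 hℓ hℓN f ∈ qIntegralSet N := by
  intro n
  rw [qCoeff_heckeTLin]
  refine Subring.add_mem _ (hf _) ?_
  split_ifs
  · exact Subring.mul_mem _ (natCast_mem _ ℓ) (hf _)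
  · exact Subring.zero_mem _

theorem heckeULin_mem_qIntegralSet [NeZero N] {q : ℕ} (hq : q.Prime) (hqN : q ∣ N)
    {f : CuspForm (Gamma0 N) 2} (hf : f ∈ qIntegralSet N) :
    CuspForm.heckeULin 2 hqN f ∈ qIntegralSet N := by
  intro n
  rw [qCoeff_heckeULin hq]
  exact hf _

theorem add_mem_qIntegralSet {f g : CuspForm (Gamma0 N) 2} (hf : f ∈ qIntegralSet N)
    (hg : g ∈ qIntegralSet N) : f + g ∈ qIntegralSet N := by
  intro n
  rw [qCoeff_add]
  exact Subring.add_mem _ (hf n) (hg n)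

theorem zsmul_mem_qIntegralSet (c : ℤ) {f : CuspForm (Gamma0 N) 2} (hf : f ∈ qIntegralSet N) :
    c • f ∈ qIntegralSet N := by
  intro n
  rw [qCoeff_zsmul]
  exact Subring.mul_mem _ (intCast_mem _ c) (hf n)

theorem zero_mem_qIntegralSet : (0 : CuspForm (Gamma0 N) 2) ∈ qIntegralSet N := by
  intro n
  rw [qCoeff_zero_form]
  exact Subring.zero_mem _

/-- The `ℤ`-span in the definition of `qIntegralLattice` adds nothing: the set of `q`-integral
forms is already an additive subgroup. -/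
theorem mem_qIntegralLattice_iff (f : CuspForm (Gamma0 N) 2) :
    f ∈ qIntegralLattice N ↔ f ∈ qIntegralSet N := by
  constructor
  · intro hf
    refine Submodule.span_induction (p := fun f _ => f ∈ qIntegralSet N) (fun x hx => hx)
      zero_mem_qIntegralSet (fun x y _ _ hx hy => add_mem_qIntegralSet hx hy)
      (fun c x _ hx => zsmul_mem_qIntegralSet c hx) hf
  · exact fun hf => Submodule.subset_span hf

/-- Division by an integer inside the lattice: a `q`-integral form all of whose coefficients are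
divisible by `d ≠ 0` is `d` times a `q`-integral form. -/
theorem exists_eq_zsmul_of_forall_dvd {d : ℤ} (hd : d ≠ 0) {f : CuspForm (Gamma0 N) 2}
    (hf : ∀ n : ℕ, ∃ m : ℤ, qCoeff ⇑f n = (d : ℂ) * (m : ℂ)) :
    ∃ g ∈ qIntegralSet N, f = d • g := by
  have hd' : (d : ℂ) ≠ 0 := by exact_mod_cast hd
  refine ⟨(d : ℂ)⁻¹ • f, ?_, ?_⟩
  · intro n
    obtain ⟨m, hm⟩ := hf n
    rw [qCoeff_smul, hm, inv_mul_cancel_left₀ hd']
    exact intCast_mem _ m
  · apply eq_of_forall_qCoeff_eq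
    intro n
    rw [qCoeff_zsmul, qCoeff_smul, mul_inv_cancel_left₀ hd']

/-! ### (Q5) a common eigenvector of all `T_ℓ`, `U_q` is a multiple of a normalised eigenform -/

theorem heckeRel_qCoeff_of_eigenvector [NeZero N] (w : CuspForm (Gamma0 N) 2) (lam : ℕ → ℂ)
    (hT : ∀ (ℓ : ℕ) (hℓ : ℓ.Prime) (hℓN : ¬ ℓ ∣ N), CuspForm.heckeTLin 2 hℓ hℓN w = lam ℓ • w)
    (hU : ∀ (q : ℕ) (_ : q.Prime) (hqN : q ∣ N), CuspForm.heckeULin 2 hqN w = lam q • w) :
    HeckeRel (levelChar N) lam (fun n => qCoeff ⇑w n) := by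
  apply heckeRel_of_mul_right
  intro ℓ hℓ n
  by_cases hℓN : ℓ ∣ N
  · have h := qCoeff_heckeULin hℓ hℓN w n
    rw [hU ℓ hℓ hℓN, qCoeff_smul] at h
    simp only [levelChar, if_pos hℓN, zero_mul, ite_self, add_zero]
    exact h.symm
  · have h := qCoeff_heckeTLin hℓ hℓN w n
    rw [hT ℓ hℓ hℓN, qCoeff_smul] at h
    simp only [levelChar, if_neg hℓN]
    exact h.symm

theorem qCoeff_one_ne_zero_of_eigenvector [NeZero N] (w : CuspForm (Gamma0 N) 2) (hw : w ≠ 0)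
    (lam : ℕ → ℂ)
    (hT : ∀ (ℓ : ℕ) (hℓ : ℓ.Prime) (hℓN : ¬ ℓ ∣ N), CuspForm.heckeTLin 2 hℓ hℓN w = lam ℓ • w)
    (hU : ∀ (q : ℕ) (_ : q.Prime) (hqN : q ∣ N), CuspForm.heckeULin 2 hqN w = lam q • w) :
    qCoeff ⇑w 1 ≠ 0 := by
  intro h1
  apply hw
  apply eq_zero_of_forall_qCoeff_eq_zero
  intro n
  rcases Nat.eq_zero_or_pos n with rfl | hn
  · exact qCoeff_zero_index w
  · exact heckeRel_eq_zero_of_one (heckeRel_qCoeff_of_eigenvector w lam hT hU) h1 n hn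

theorem exists_normalizedEigenform_of_eigenvector [NeZero N] (w : CuspForm (Gamma0 N) 2)
    (hw : w ≠ 0) (lam : ℕ → ℂ)
    (hT : ∀ (ℓ : ℕ) (hℓ : ℓ.Prime) (hℓN : ¬ ℓ ∣ N), CuspForm.heckeTLin 2 hℓ hℓN w = lam ℓ • w)
    (hU : ∀ (q : ℕ) (_ : q.Prime) (hqN : q ∣ N), CuspForm.heckeULin 2 hqN w = lam q • w) :
    ∃ f : CuspForm (Gamma0 N) 2, f.IsNormalizedEigenform ∧
      ∀ ℓ : ℕ, ℓ.Prime → qCoeff ⇑f ℓ = lam ℓ := by
  have h1 := qCoeff_one_ne_zero_of_eigenvector w hw lam hT hU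
  set f : CuspForm (Gamma0 N) 2 := (qCoeff ⇑w 1)⁻¹ • w with hf
  have hfT : ∀ (ℓ : ℕ) (hℓ : ℓ.Prime) (hℓN : ¬ ℓ ∣ N),
      CuspForm.heckeTLin 2 hℓ hℓN f = lam ℓ • f := by
    intro ℓ hℓ hℓN
    rw [hf, map_smul, hT ℓ hℓ hℓN, smul_comm]
  have hfU : ∀ (q : ℕ) (_ : q.Prime) (hqN : q ∣ N), CuspForm.heckeULin 2 hqN f = lam q • f := by
    intro q hq hqN
    rw [hf, map_smul, hU q hq hqN, smul_comm]
  have hrel := heckeRel_qCoeff_of_eigenvector f lam hfT hfU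
  have hf1 : qCoeff ⇑f 1 = 1 := by rw [hf, qCoeff_smul, inv_mul_cancel₀ h1]
  have hlam : ∀ ℓ : ℕ, ℓ.Prime → qCoeff ⇑f ℓ = lam ℓ := by
    intro ℓ hℓ
    have h := hrel ℓ hℓ 1
    have hnd : ¬ ℓ ∣ 1 := fun hd => hℓ.one_lt.ne' (Nat.dvd_one.mp hd)
    simp only [mul_one, if_neg hnd, mul_zero, add_zero] at h
    rw [h, hf1, mul_one]
  refine ⟨f, isNormalizedEigenform_of_isEigensystem f ⟨hf1, ?_⟩, hlam⟩
  intro ℓ hℓ n
  have h := hrel ℓ hℓ n
  simp only at h ⊢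
  rw [h, hlam ℓ hℓ]

end Fermat.Agent.S49
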