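import Mathlib
import Fermat.Prelude.Def_FormalHecke_Eigensystem

set_option autoImplicit false

namespace Fermat.Agent.S49.H25

variable {R : Type*} [CommRing R]

/-- Prime-power recursion from the eigen-relations. -/
theorem primePow_of_isEigensystem {e a : ℕ → R} (h : FormalHecke.IsEigensystem e a)
    (ℓ r : ℕ) (hℓ : ℓ.Prime) :
    a (ℓ ^ (r + 2)) = a ℓ * a (ℓ ^ (r + 1)) - e ℓ * a (ℓ ^ r) := by
  have h2 := h.2 ℓ hℓ (ℓ ^ (r + 1))
  have hdvd : ℓ ∣ ℓ ^ (r + 1) := dvd_pow_self ℓ (Nat.succ_ne_zero r)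
  have hdiv : ℓ ^ (r + 1) / ℓ = ℓ ^ r := by
    rw [pow_succ, Nat.mul_div_cancel _ hℓ.pos]
  rw [if_pos hdvd, hdiv] at h2
  have h3 : ℓ ^ (r + 2) = ℓ * ℓ ^ (r + 1) := by ring
  rw [h3, ← h2]
  ring

/-- `a (ℓ^r * n) = a (ℓ^r) * a n` when `ℓ ∤ n`. -/
theorem mul_primePow_of_isEigensystem {e a : ℕ → R} (h : FormalHecke.IsEigensystem e a)
    (ℓ : ℕ) (hℓ : ℓ.Prime) (n : ℕ) (hn : ¬ ℓ ∣ n) :
    ∀ r : ℕ, a (ℓ ^ r * n) = a (ℓ ^ r) * a n := by
  have key : ∀ r : ℕ, a (ℓ ^ r * n) = a (ℓ ^ r) * a n ∧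
      a (ℓ ^ (r + 1) * n) = a (ℓ ^ (r + 1)) * a n := by
    intro r
    induction r with
    | zero =>
      refine ⟨by simp [h.1], ?_⟩
      have h2 := h.2 ℓ hℓ n
      rw [if_neg hn, mul_zero, add_zero] at h2
      simpa using h2
    | succ r ih =>
      refine ⟨ih.2, ?_⟩
      have h2 := h.2 ℓ hℓ (ℓ ^ (r + 1) * n)
      have hdvd : ℓ ∣ ℓ ^ (r + 1) * n := Dvd.dvd.mul_right (dvd_pow_self ℓ (Nat.succ_ne_zero r)) n
      have hdiv : ℓ ^ (r + 1) * n / ℓ = ℓ ^ r * n := by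
        rw [pow_succ, mul_assoc, mul_comm ℓ n, ← mul_assoc, Nat.mul_div_cancel _ hℓ.pos]
      rw [if_pos hdvd, hdiv] at h2
      have h3 : ℓ ^ (r + 1 + 1) * n = ℓ * (ℓ ^ (r + 1) * n) := by ring
      rw [h3, eq_sub_of_add_eq h2, ih.1, ih.2, primePow_of_isEigensystem h ℓ r hℓ]
      ring
  exact fun r => (key r).1

theorem isRecursive_of_isEigensystem {e a : ℕ → R} (h : FormalHecke.IsEigensystem e a) :
    FormalHecke.IsRecursive e a := by
  refine ⟨h.1, ?_, fun ℓ r hℓ => primePow_of_isEigensystem h ℓ r hℓ⟩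
  intro m
  induction m using Nat.strong_induction_on with
  | _ m ih =>
    intro n hmn
    rcases Nat.eq_zero_or_pos m with rfl | hmpos
    · have : n = 1 := by simpa using hmn
      subst this
      simp [h.1]
    rcases eq_or_ne m 1 with rfl | hm1
    · simp [h.1]
    -- m ≥ 2
    obtain ⟨p, hp, hpm⟩ := Nat.exists_prime_and_dvd hm1
    obtain ⟨r, m', hm', rfl⟩ := Nat.exists_eq_pow_mul_and_not_dvd hmpos.ne' p hp.ne_one
    have hr : r ≠ 0 := by
      rintro rfl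
      simp at hpm
      exact hm' hpm
    have hm'pos : 0 < m' := by
      rcases Nat.eq_zero_or_pos m' with rfl | h0
      · simp at hmpos
      · exact h0
    have hlt : m' < p ^ r * m' := by
      have : 1 < p ^ r := Nat.one_lt_pow hr hp.one_lt
      nlinarith
    have hcop' : m'.Coprime n := Nat.Coprime.coprime_mul_left hmn
    have hpn : ¬ p ∣ n := by
      intro hpn
      have : p ∣ Nat.gcd (p ^ r * m') n :=
        Nat.dvd_gcd (Dvd.dvd.mul_right (dvd_pow_self p hr) m') hpn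
      rw [hmn] at this
      exact hp.one_lt.ne' (Nat.dvd_one.mp this)
    have hpm'n : ¬ p ∣ m' * n := by
      intro hd
      rcases (Nat.Prime.dvd_mul hp).mp hd with h1 | h1
      · exact hm' h1
      · exact hpn h1
    rw [mul_assoc, mul_primePow_of_isEigensystem h p hp (m' * n) hpm'n r,
      ih m' hlt n hcop', mul_primePow_of_isEigensystem h p hp m' hm' r]
    ring

end Fermat.Agent.S49.H25
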