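import Mathlib
import Fermat.Prelude.Def_FLTPrelim_Modularity
import Fermat.Prelude.Def_CuspForm_IntegralStructure
import Fermat.Prelude.Def_CuspForm_IntegralLattice
import Fermat.Prelude.Def_ModularForm_HeckeOperatorForms
import Fermat.Prelude.Thm_ModularFormClass_qCoeff_heckeT
import Fermat.Prelude.Thm_ModularFormClass_qCoeff_heckeU
import Fermat.Prelude.Thm_CongruenceSubgroup_one_mem_strictPeriods_Gamma0
import Fermat.Agent.S49.H25Formal

set_option autoImplicit false
open CuspForm CongruenceSubgroup ModularFormClass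

namespace Fermat.Agent.S49.H25

variable {N : ℕ}

theorem qCoeff_add (f g : CuspForm (Gamma0 N) 2) (n : ℕ) :
    qCoeff (⇑(f + g)) n = qCoeff f n + qCoeff g n := by
  unfold ModularFormClass.qCoeff
  rw [FunLike.coe_add, ModularForm.qExpansion_add one_pos (one_mem_strictPeriods_Gamma0 N) f g]
  simp

theorem qCoeff_smul (c : ℂ) (f : CuspForm (Gamma0 N) 2) (n : ℕ) :
    qCoeff (⇑(c • f)) n = c * qCoeff f n := by
  unfold ModularFormClass.qCoeff
  rw [FunLike.coe_smul, ModularForm.qExpansion_smul one_pos (one_mem_strictPeriods_Gamma0 N) c f]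
  simp

theorem qCoeff_zsmul (c : ℤ) (f : CuspForm (Gamma0 N) 2) (n : ℕ) :
    qCoeff (⇑(c • f)) n = c * qCoeff f n := by
  rw [← qCoeff_smul, Int.cast_smul_eq_zsmul]

theorem qCoeff_zero_form (n : ℕ) : qCoeff (⇑(0 : CuspForm (Gamma0 N) 2)) n = 0 := by
  unfold ModularFormClass.qCoeff
  rw [FunLike.coe_zero, UpperHalfPlane.qExpansion_zero]
  simp

theorem qCoeff_sub (f g : CuspForm (Gamma0 N) 2) (n : ℕ) :
    qCoeff (⇑(f - g)) n = qCoeff f n - qCoeff g n := by
  unfold ModularFormClass.qCoeff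
  rw [FunLike.coe_sub, ModularForm.qExpansion_sub one_pos (one_mem_strictPeriods_Gamma0 N) f g]
  simp

theorem qCoeff_cusp_zero (f : CuspForm (Gamma0 N) 2) : qCoeff f 0 = 0 :=
  CuspFormClass.qExpansion_coeff_zero f one_pos (one_mem_strictPeriods_Gamma0 N)

theorem eq_zero_of_qCoeff (f : CuspForm (Gamma0 N) 2) (h : ∀ n, qCoeff f n = 0) : f = 0 := by
  have hper := SlashInvariantFormClass.periodic_comp_ofComplex f (one_mem_strictPeriods_Gamma0 N)
  have hq0 : UpperHalfPlane.qExpansion 1 f = 0 := by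
    ext n
    simpa [ModularFormClass.qCoeff] using h n
  have hz : (f : UpperHalfPlane → ℂ) = 0 := by
    have : Fact (IsCusp OnePoint.infty (Subgroup.map (Matrix.SpecialLinearGroup.mapGL ℝ) (Gamma0 N))) :=
      ⟨Subgroup.isCusp_of_mem_strictPeriods one_pos (one_mem_strictPeriods_Gamma0 N)⟩
    exact (UpperHalfPlane.qExpansion_eq_zero_iff one_pos hper (ModularFormClass.holo f)
      (ModularFormClass.bdd_at_infty f)).mp hq0
  exact DFunLike.coe_injective hz

theorem qCoeff_heckeTLin {p : ℕ} (hp : p.Prime) (hpN : ¬ p ∣ N) (f : CuspForm (Gamma0 N) 2)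
    (n : ℕ) :
    qCoeff (⇑(heckeTLin 2 hp hpN f)) n =
      qCoeff f (n * p) + if p ∣ n then (p : ℂ) * qCoeff f (n / p) else 0 := by
  rw [coe_heckeTLin_apply, ModularFormClass.qCoeff_heckeT f (one_mem_strictPeriods_Gamma0 N)
    hp.ne_zero n, ModularForm.coeffHeckeT_apply]
  norm_num

theorem qCoeff_heckeULin [NeZero N] {p : ℕ} (hp : p.Prime) (hpN : p ∣ N)
    (f : CuspForm (Gamma0 N) 2) (n : ℕ) :
    qCoeff (⇑(heckeULin 2 hpN f)) n = qCoeff f (n * p) := by
  rw [coe_heckeULin_apply, ModularFormClass.qCoeff_heckeU f (one_mem_strictPeriods_Gamma0 N)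
    hp.ne_zero n, ModularForm.coeffHeckeU_apply]

/-- Elements of the integral lattice have integral `q`-coefficients. -/
theorem intCoeff_of_mem_intLattice {f : CuspForm (Gamma0 N) 2} (hf : f ∈ intLattice N 2) :
    ∀ n : ℕ, ∃ m : ℤ, qCoeff f n = (m : ℂ) := by
  unfold CuspForm.intLattice at hf
  induction hf using Submodule.span_induction with
  | mem x hx => exact hx
  | zero => exact fun n => ⟨0, by rw [qCoeff_zero_form]; simp⟩
  | add x y _ _ hx hy =>
    intro n
    obtain ⟨a, ha⟩ := hx n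
    obtain ⟨b, hb⟩ := hy n
    exact ⟨a + b, by rw [qCoeff_add, ha, hb]; push_cast; ring⟩
  | smul c x _ hx =>
    intro n
    obtain ⟨a, ha⟩ := hx n
    exact ⟨c * a, by rw [qCoeff_zsmul, ha]; push_cast; ring⟩

theorem mem_intLattice_of_intCoeff {f : CuspForm (Gamma0 N) 2}
    (hf : ∀ n : ℕ, ∃ m : ℤ, qCoeff f n = (m : ℂ)) : f ∈ intLattice N 2 :=
  Submodule.subset_span hf

theorem qIntegralSet_subset_intLattice {f : CuspForm (Gamma0 N) 2}
    (hf : f ∈ CuspForm.qIntegralSet N) : f ∈ intLattice N 2 := by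
  refine mem_intLattice_of_intCoeff fun n => ?_
  obtain ⟨m, hm⟩ := Subring.mem_bot.mp (hf n)
  exact ⟨m, hm.symm⟩

/-- The weight-two level-`N` character `ℓ ↦ ℓ` away from the level and `0` at the level. -/
noncomputable def levelChar (N : ℕ) (p : ℕ) : ℂ := if p ∣ N then 0 else (p : ℂ)

/-- A common Hecke eigenvector with eigenvalues `lam`. -/
structure IsHeckeEigen [NeZero N] (w : CuspForm (Gamma0 N) 2) (lam : ℕ → ℂ) : Prop where
  hT : ∀ (p : ℕ) (hp : p.Prime) (hpN : ¬ p ∣ N), heckeTLin 2 hp hpN w = lam p • w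
  hU : ∀ (p : ℕ) (_ : p.Prime) (hpN : p ∣ N), heckeULin 2 hpN w = lam p • w

theorem IsHeckeEigen.coeff_rel [NeZero N] {w : CuspForm (Gamma0 N) 2} {lam : ℕ → ℂ}
    (h : IsHeckeEigen w lam) (p : ℕ) (hp : p.Prime) (n : ℕ) :
    qCoeff w (p * n) + levelChar N p * (if p ∣ n then qCoeff w (n / p) else 0) =
      lam p * qCoeff w n := by
  by_cases hpN : p ∣ N
  · have h1 := congrArg (fun g : CuspForm (Gamma0 N) 2 => qCoeff (⇑g) n) (h.hU p hp hpN)
    simp only [qCoeff_heckeULin hp hpN, qCoeff_smul] at h1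
    rw [levelChar, if_pos hpN, zero_mul, add_zero, mul_comm p n]
    exact h1
  · have h1 := congrArg (fun g : CuspForm (Gamma0 N) 2 => qCoeff (⇑g) n) (h.hT p hp hpN)
    simp only [qCoeff_heckeTLin hp hpN, qCoeff_smul] at h1
    rw [levelChar, if_neg hpN, mul_comm p n, ← h1]
    split_ifs <;> simp

/-- A nonzero common eigenvector has nonzero first coefficient. -/
theorem IsHeckeEigen.qCoeff_one_ne_zero [NeZero N] {w : CuspForm (Gamma0 N) 2} {lam : ℕ → ℂ}
    (h : IsHeckeEigen w lam) (hw : w ≠ 0) : qCoeff w 1 ≠ 0 := by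
  intro h1
  apply hw
  apply eq_zero_of_qCoeff
  intro n
  induction n using Nat.strong_induction_on with
  | _ n ih =>
    rcases Nat.eq_zero_or_pos n with rfl | hpos
    · exact qCoeff_cusp_zero w
    rcases eq_or_ne n 1 with rfl | hn1
    · exact h1
    obtain ⟨p, hp, hpn⟩ := Nat.exists_prime_and_dvd hn1
    obtain ⟨m, rfl⟩ := hpn
    have hmpos : 0 < m := by
      rcases Nat.eq_zero_or_pos m with rfl | h0
      · simp at hpos
      · exact h0
    have hlt : m < p * m := by
      have := hp.one_lt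
      nlinarith
    have hrel := h.coeff_rel p hp m
    have hm0 : qCoeff w m = 0 := ih m hlt
    have hdiv0 : (if p ∣ m then qCoeff w (m / p) else 0) = 0 := by
      split_ifs with hd
      · exact ih (m / p) (lt_of_le_of_lt (Nat.div_le_self m p) hlt)
      · rfl
    rw [hm0, hdiv0, mul_zero, mul_zero, add_zero] at hrel
    exact hrel

/-- Normalising a nonzero common eigenvector gives a normalised eigenform. -/
theorem IsHeckeEigen.normalize [NeZero N] {w : CuspForm (Gamma0 N) 2} {lam : ℕ → ℂ}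
    (h : IsHeckeEigen w lam) (hw : w ≠ 0) :
    ∃ f : CuspForm (Gamma0 N) 2, f.IsNormalizedEigenform ∧
      ∀ p : ℕ, p.Prime → qCoeff f p = lam p := by
  have hb1 := h.qCoeff_one_ne_zero hw
  refine ⟨(qCoeff w 1)⁻¹ • w, ?_, ?_⟩
  · have hrel : ∀ (p : ℕ), p.Prime → ∀ n : ℕ,
        qCoeff (⇑((qCoeff w 1)⁻¹ • w)) (p * n) +
          levelChar N p * (if p ∣ n then qCoeff (⇑((qCoeff w 1)⁻¹ • w)) (n / p) else 0) =
        lam p * qCoeff (⇑((qCoeff w 1)⁻¹ • w)) n := by
      intro p hp n
      have := h.coeff_rel p hp n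
      simp only [qCoeff_smul]
      rw [← mul_assoc, mul_comm (lam p), mul_assoc, ← this]
      split_ifs <;> ring
    have hone : qCoeff (⇑((qCoeff w 1)⁻¹ • w)) 1 = 1 := by
      rw [qCoeff_smul, inv_mul_cancel₀ hb1]
    have hlam : ∀ p : ℕ, p.Prime → qCoeff (⇑((qCoeff w 1)⁻¹ • w)) p = lam p := by
      intro p hp
      have := hrel p hp 1
      rw [if_neg (by simpa using hp.one_lt.ne'), mul_zero, add_zero, mul_one, hone, mul_one] at this
      exact this
    have heig : FormalHecke.IsEigensystem (levelChar N)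
        (fun n => qCoeff (⇑((qCoeff w 1)⁻¹ • w)) n) := by
      refine ⟨hone, fun p hp n => ?_⟩
      simp only
      rw [hrel p hp n, hlam p hp]
    obtain ⟨_, hmul, hpow⟩ := isRecursive_of_isEigensystem heig
    refine ⟨hone, hmul, ?_, ?_⟩
    · intro p r hp hpN
      have := hpow p r hp
      simp only [levelChar, if_neg hpN] at this
      exact this
    · intro p r hp hpN
      have := hpow p r hp
      simp only [levelChar, if_pos hpN, zero_mul, sub_zero] at this
      exact this
  · intro p hp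
    have := h.coeff_rel p hp 1
    rw [if_neg (by simpa using hp.one_lt.ne'), mul_zero, add_zero, mul_one] at this
    rw [qCoeff_smul, this]
    field_simp

end Fermat.Agent.S49.H25
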