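-- T-S49 (helper3): a commuting family of endomorphisms of a nonzero finite-dimensional vector space
-- over an algebraically closed field has a common eigenvector.
import Mathlib

set_option autoImplicit false

namespace Fermat.Agent.S49

open Module Module.End

/-- Auxiliary form of `commFamily_exists_eigenvector`, by strong induction on the dimension. -/
theorem commFamily_exists_eigenvector_aux {K ι : Type*} [Field K] [IsAlgClosed K] (n : ℕ) :
    ∀ (W : Type*) [AddCommGroup W] [Module K W] [FiniteDimensional K W] [Nontrivial W]
      (f : ι → Module.End K W), (∀ i j, Commute (f i) (f j)) → finrank K W = n →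
      ∃ w : W, w ≠ 0 ∧ ∀ i, ∃ μ : K, f i w = μ • w := by
  induction n using Nat.strong_induction_on with
  | _ n ih =>
    intro W _ _ _ _ f hcomm hn
    by_cases hscal : ∀ i, ∃ μ : K, ∀ w, f i w = μ • w
    · obtain ⟨w, hw⟩ := exists_ne (0 : W)
      exact ⟨w, hw, fun i => (hscal i).imp fun μ hμ => hμ w⟩
    · simp only [not_forall, not_exists] at hscal
      obtain ⟨i₀, hi₀⟩ := hscal
      obtain ⟨μ, hμ⟩ := Module.End.exists_eigenvalue (f i₀)
      set E := eigenspace (f i₀) μ with hE
      have hEbot : E ≠ ⊥ := hμ
      have hEtop : E ≠ ⊤ := by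
        intro htop
        obtain ⟨w, hw⟩ := hi₀ μ
        have hwE : w ∈ E := htop ▸ Submodule.mem_top
        exact hw (mem_eigenspace_iff.mp hwE)
      have hmaps : ∀ i, ∀ x ∈ E, f i x ∈ E := by
        intro i x hx
        rw [hE, mem_eigenspace_iff] at hx ⊢
        have := (hcomm i₀ i).eq
        calc f i₀ (f i x) = (f i₀ * f i) x := rfl
          _ = (f i * f i₀) x := by rw [this]
          _ = f i (f i₀ x) := rfl
          _ = μ • f i x := by rw [hx, map_smul]
      have : Nontrivial E := Submodule.nontrivial_iff_ne_bot.mpr hEbot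
      have hlt : finrank K E < n := hn ▸ Submodule.finrank_lt hEtop
      obtain ⟨w, hw, hwe⟩ := ih (finrank K E) hlt E (fun i => (f i).restrict (hmaps i))
        (fun i j => by
          ext x
          have := congrArg (fun g => g (x : W)) (hcomm i j).eq
          simpa using this) rfl
      refine ⟨w, fun h => hw (Subtype.ext h), fun i => ?_⟩
      obtain ⟨ν, hν⟩ := hwe i
      exact ⟨ν, by simpa using congrArg Subtype.val hν⟩

/-- A commuting family of endomorphisms of a nonzero finite-dimensional vector space over an
algebraically closed field has a common eigenvector. -/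
theorem commFamily_exists_eigenvector {K W ι : Type*} [Field K] [IsAlgClosed K] [AddCommGroup W]
    [Module K W] [FiniteDimensional K W] [Nontrivial W] (f : ι → Module.End K W)
    (hcomm : ∀ i j, Commute (f i) (f j)) :
    ∃ w : W, w ≠ 0 ∧ ∀ i, ∃ μ : K, f i w = μ • w :=
  commFamily_exists_eigenvector_aux (finrank K W) W f hcomm rfl

/-- Submodule version: a commuting family preserving a nonzero subspace `p` has a common
eigenvector inside `p`. -/
theorem commFamily_exists_eigenvector_mem {K W ι : Type*} [Field K] [IsAlgClosed K] [AddCommGroup W]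
    [Module K W] [FiniteDimensional K W] (f : ι → Module.End K W)
    (hcomm : ∀ i j, Commute (f i) (f j)) (p : Submodule K W) (hp : p ≠ ⊥)
    (hmaps : ∀ i, ∀ x ∈ p, f i x ∈ p) :
    ∃ w ∈ p, w ≠ 0 ∧ ∀ i, ∃ μ : K, f i w = μ • w := by
  have : Nontrivial p := Submodule.nontrivial_iff_ne_bot.mpr hp
  obtain ⟨w, hw, hwe⟩ := commFamily_exists_eigenvector (fun i => (f i).restrict (hmaps i))
    (fun i j => by
      ext x
      have := congrArg (fun g => g (x : W)) (hcomm i j).eq
      simpa using this)
  refine ⟨w, w.2, fun h => hw (Subtype.ext h), fun i => ?_⟩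
  obtain ⟨ν, hν⟩ := hwe i
  exact ⟨ν, by simpa using congrArg Subtype.val hν⟩

end Fermat.Agent.S49
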