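import Mathlib

/-!
# Abstract Deligne–Serre lifting (helper file for S49)

`A` is a commutative ring, finite as a `ℤ`-module, acting faithfully and `ℂ`-linearly on a
finite-dimensional complex vector space `V`.  For every prime ideal `𝔫` of `A` there is a
common eigenvector `w ≠ 0` whose eigencharacter `χ : A →+* integralClosure ℤ ℂ` satisfies
`χ(𝔫) ⊆ 𝔪'` for some maximal ideal `𝔪'` of `integralClosure ℤ ℂ`.
-/

set_option autoImplicit false

namespace Fermat.Agent.S49

open Module

section CommonEigenvector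

variable {A : Type*} [CommRing A] {V : Type*} [AddCommGroup V] [Module ℂ V]
  [FiniteDimensional ℂ V]

/-- A commuting family of operators (the image of a commutative ring) stabilising a nonzero
subspace has a common eigenvector in it. -/
theorem exists_common_eigenvector (ρ : A →+* Module.End ℂ V) (W : Submodule ℂ V) (hW : W ≠ ⊥)
    (hstab : ∀ t : A, ∀ x ∈ W, ρ t x ∈ W) :
    ∃ w ∈ W, w ≠ 0 ∧ ∀ t : A, ∃ μ : ℂ, ρ t w = μ • w := by
  classical
  -- choose a minimal nonzero stable subspace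
  let 𝒮 : Set (Submodule ℂ V) := {W' | W' ≠ ⊥ ∧ W' ≤ W ∧ ∀ t : A, ∀ x ∈ W', ρ t x ∈ W'}
  have h𝒮 : 𝒮.Nonempty := ⟨W, hW, le_rfl, hstab⟩
  obtain ⟨W', hW'mem, hW'min⟩ := (wellFounded_lt (α := Submodule ℂ V)).has_min 𝒮 h𝒮
  obtain ⟨hW'ne, hW'le, hW'stab⟩ := hW'mem
  -- every t acts as a scalar on W'
  have hscalar : ∀ t : A, ∃ μ : ℂ, ∀ x ∈ W', ρ t x = μ • x := by
    intro t
    have : Nontrivial W' := Submodule.nontrivial_iff_ne_bot.mpr hW'ne
    let g : Module.End ℂ W' := (ρ t).restrict (hW'stab t)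
    obtain ⟨μ, hμ⟩ := Module.End.exists_eigenvalue g
    obtain ⟨v, hv⟩ := hμ.exists_hasEigenvector
    refine ⟨μ, ?_⟩
    let W'' : Submodule ℂ V := W' ⊓ LinearMap.ker (ρ t - μ • (1 : Module.End ℂ V))
    have hv_mem : (v : V) ∈ W'' := by
      refine ⟨v.2, ?_⟩
      have h1 : g v = μ • v := hv.apply_eq_smul
      have h2 : ρ t (v : V) = μ • (v : V) := by
        have := congrArg Subtype.val h1
        simpa [g] using this
      simp [LinearMap.mem_ker, h2]
    have hW''mem : W'' ∈ 𝒮 := by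
      refine ⟨?_, inf_le_left.trans hW'le, ?_⟩
      · intro hbot
        have : (v : V) ∈ (⊥ : Submodule ℂ V) := hbot ▸ hv_mem
        have hv0 : (v : V) = 0 := by simpa using this
        exact hv.2 (Subtype.ext hv0)
      · intro s x hx
        refine ⟨hW'stab s x hx.1, ?_⟩
        have hx2 : ρ t x = μ • x := by
          have := hx.2
          simpa [LinearMap.mem_ker, sub_eq_zero] using this
        have hcomm : ρ t (ρ s x) = ρ s (ρ t x) := by
          have h1 : (ρ t * ρ s) x = (ρ s * ρ t) x := by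
            rw [← map_mul, ← map_mul, mul_comm]
          simpa using h1
        simp [LinearMap.mem_ker, hcomm, hx2]
    have hle : W'' ≤ W' := inf_le_left
    have heq : W'' = W' := by
      by_contra hne
      exact hW'min W'' hW''mem (lt_of_le_of_ne hle hne)
    intro x hx
    have hx' : x ∈ W'' := heq ▸ hx
    have := hx'.2
    simpa [LinearMap.mem_ker, sub_eq_zero] using this
  obtain ⟨w, hwW', hw0⟩ := Submodule.exists_mem_ne_zero_of_ne_bot hW'ne
  exact ⟨w, hW'le hwW', hw0, fun t => (hscalar t).imp fun μ hμ => hμ w hwW'⟩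

omit [FiniteDimensional ℂ V] in
/-- The eigencharacter of a common eigenvector. -/
theorem exists_eigencharacter (ρ : A →+* Module.End ℂ V) (w : V) (hw : w ≠ 0)
    (h : ∀ t : A, ∃ μ : ℂ, ρ t w = μ • w) :
    ∃ χ : A →+* ℂ, ∀ t : A, ρ t w = χ t • w := by
  classical
  choose μ hμ using h
  have hinj : Function.Injective (fun c : ℂ => c • w) := smul_left_injective ℂ hw
  refine ⟨{ toFun := μ, map_one' := ?_, map_mul' := ?_, map_zero' := ?_, map_add' := ?_ }, hμ⟩
  · apply hinj
    simp only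
    rw [← hμ 1, map_one, one_smul]; rfl
  · intro s t
    apply hinj
    simp only
    rw [← hμ (s * t), map_mul, Module.End.mul_apply, hμ t, map_smul, hμ s, smul_smul, mul_comm]
  · apply hinj
    simp only
    rw [← hμ 0, map_zero, zero_smul]; rfl
  · intro s t
    apply hinj
    simp only
    rw [← hμ (s + t), map_add, LinearMap.add_apply, hμ s, hμ t, add_smul]

end CommonEigenvector

section Lift

variable {A : Type*} [CommRing A] [Module.Finite ℤ A] {V : Type*} [AddCommGroup V] [Module ℂ V]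
  [FiniteDimensional ℂ V]

/-- **Abstract Deligne–Serre lifting lemma.**  Let `A` be a commutative ring that is finite over
`ℤ` and acts faithfully on a finite-dimensional complex vector space `V`.  For every prime
ideal `𝔫` of `A` there are a common eigenvector `w ≠ 0`, with eigencharacter `χ` valued in the
algebraic integers, and a maximal ideal `𝔪'` of the algebraic integers containing `χ(𝔫)`. -/
theorem exists_eigenvector_lift (ρ : A →+* Module.End ℂ V) (hρ : Function.Injective ρ)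
    (𝔫 : Ideal A) [h𝔫 : 𝔫.IsPrime] :
    ∃ (w : V) (χ : A →+* integralClosure ℤ ℂ) (𝔪' : Ideal (integralClosure ℤ ℂ)),
      w ≠ 0 ∧ (∀ t : A, ρ t w = ((χ t : integralClosure ℤ ℂ) : ℂ) • w) ∧ 𝔪'.IsMaximal ∧
      𝔫 ≤ 𝔪'.comap χ := by
  classical
  have : IsNoetherianRing A := IsNoetherianRing.of_finite ℤ A
  have : Algebra.IsIntegral ℤ A := Algebra.IsIntegral.of_finite ℤ A
  -- a minimal prime below 𝔫
  obtain ⟨𝔭, h𝔭min, h𝔭le⟩ := Ideal.exists_minimalPrimes_le (bot_le : (⊥ : Ideal A) ≤ 𝔫)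
  have h𝔭prime : 𝔭.IsPrime := h𝔭min.1.1
  -- it is an associated prime of A
  have hass : 𝔭 ∈ associatedPrimes A A := by
    apply Module.associatedPrimes.minimalPrimes_annihilator_subset_associatedPrimes A A
    have : Module.annihilator A A = ⊥ := by
      rw [eq_bot_iff]
      intro a ha
      have := Module.mem_annihilator.mp ha 1
      simpa using this
    rw [this]; exact h𝔭min
  obtain ⟨-, t₀, ht₀⟩ := (isAssociatedPrime_iff).mp hass
  have hmem𝔭 : ∀ s : A, s ∈ 𝔭 ↔ s * t₀ = 0 := by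
    intro s
    rw [ht₀, Submodule.mem_colon_singleton, Submodule.mem_bot, smul_eq_mul]
  have ht₀ne : t₀ ≠ 0 := by
    intro h0
    apply h𝔭prime.ne_top
    rw [Ideal.eq_top_iff_one, hmem𝔭, h0, mul_zero]
  -- the subspace killed by 𝔭
  let W : Submodule ℂ V := ⨅ s : 𝔭, LinearMap.ker (ρ (s : A))
  have hmemW : ∀ x : V, x ∈ W ↔ ∀ s ∈ 𝔭, ρ s x = 0 := by
    intro x
    simp only [W, Submodule.mem_iInf, LinearMap.mem_ker, Subtype.forall]
  have hWne : W ≠ ⊥ := by
    have hρt₀ : ρ t₀ ≠ 0 := fun h => ht₀ne (hρ (h.trans (map_zero ρ).symm))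
    obtain ⟨v, hv⟩ : ∃ v, ρ t₀ v ≠ 0 := by
      by_contra hcon
      push Not at hcon
      exact hρt₀ (LinearMap.ext hcon)
    intro hbot
    have hin : ρ t₀ v ∈ W := by
      rw [hmemW]
      intro s hs
      have : (ρ s * ρ t₀) v = 0 := by
        rw [← map_mul, (hmem𝔭 s).mp hs, map_zero]; rfl
      simpa using this
    rw [hbot, Submodule.mem_bot] at hin
    exact hv hin
  have hWstab : ∀ t : A, ∀ x ∈ W, ρ t x ∈ W := by
    intro t x hx
    rw [hmemW] at hx ⊢
    intro s hs
    have hcomm : ρ s (ρ t x) = ρ t (ρ s x) := by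
      have h1 : (ρ s * ρ t) x = (ρ t * ρ s) x := by
        rw [← map_mul, ← map_mul, mul_comm]
      simpa using h1
    rw [hcomm, hx s hs, map_zero]
  obtain ⟨w, hwW, hw0, hweig⟩ := exists_common_eigenvector ρ W hWne hWstab
  obtain ⟨χ₀, hχ₀⟩ := exists_eigencharacter ρ w hw0 hweig
  -- kernel of χ₀ contains 𝔭 and both lie over (0)
  have h𝔭ker : 𝔭 ≤ RingHom.ker χ₀ := by
    intro s hs
    rw [RingHom.mem_ker]
    have h1 : ρ s w = 0 := (hmemW w).mp hwW s hs
    rw [hχ₀ s] at h1
    exact (smul_eq_zero.mp h1).resolve_right hw0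
  have hkerprime : (RingHom.ker χ₀).IsPrime := RingHom.ker_isPrime χ₀
  have hcomapker : (RingHom.ker χ₀).comap (algebraMap ℤ A) = ⊥ := by
    rw [eq_bot_iff]
    intro n hn
    rw [Ideal.mem_comap, RingHom.mem_ker, eq_intCast, map_intCast] at hn
    rw [Ideal.mem_bot]
    exact_mod_cast hn
  have hkereq : RingHom.ker χ₀ = 𝔭 := by
    by_contra hne
    have hlt : 𝔭 < RingHom.ker χ₀ := lt_of_le_of_ne h𝔭ker (Ne.symm hne)
    obtain ⟨-, x, hxker, hx𝔭⟩ := SetLike.lt_iff_le_and_exists.mp hlt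
    have := Ideal.comap_lt_comap_of_integral_mem_sdiff (R := ℤ) h𝔭ker ⟨hxker, hx𝔭⟩
      (Algebra.IsIntegral.isIntegral x)
    rw [hcomapker] at this
    exact not_lt_bot this
  -- values are algebraic integers
  have hint : ∀ t : A, χ₀ t ∈ integralClosure ℤ ℂ := by
    intro t
    have ht : IsIntegral ℤ t := Algebra.IsIntegral.isIntegral t
    exact ht.map χ₀.toIntAlgHom
  let χ : A →+* integralClosure ℤ ℂ :=
    χ₀.codRestrict (integralClosure ℤ ℂ).toSubring hint
  have hχval : ∀ t : A, ((χ t : integralClosure ℤ ℂ) : ℂ) = χ₀ t := fun t => rfl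
  have hχker : RingHom.ker χ = 𝔭 := by
    rw [← hkereq]
    ext t
    rw [RingHom.mem_ker, RingHom.mem_ker]
    constructor
    · intro h
      have := congrArg (fun z : integralClosure ℤ ℂ => (z : ℂ)) h
      simpa [hχval] using this
    · intro h
      apply Subtype.ext
      rw [hχval, h]; rfl
  have hχint : χ.IsIntegral := by
    intro z
    have hz : IsIntegral ℤ z := by
      have := z.2
      exact (isIntegral_algebraMap_iff (B := ℂ) Subtype.val_injective).mp this
    obtain ⟨p, hp, hpz⟩ := hz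
    refine ⟨p.map (algebraMap ℤ A), hp.map _, ?_⟩
    rw [Polynomial.eval₂_map]
    have : χ.comp (algebraMap ℤ A) = algebraMap ℤ (integralClosure ℤ ℂ) :=
      RingHom.ext_int _ _
    rw [this]; exact hpz
  have hmapne : 𝔫.map χ ≠ ⊤ := by
    rw [Ne, Ideal.map_eq_top_iff_of_ker_le χ (hχker ▸ h𝔭le) hχint]
    exact h𝔫.ne_top
  obtain ⟨𝔪', h𝔪'max, h𝔪'le⟩ := Ideal.exists_le_maximal _ hmapne
  exact ⟨w, χ, 𝔪', hw0, fun t => by rw [hχval]; exact hχ₀ t, h𝔪'max,
    Ideal.map_le_iff_le_comap.mp h𝔪'le⟩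

/-- Version of `exists_eigenvector_lift` phrased with a mod-`3` character `θ`. -/
theorem exists_eigenvector_lift_of_char (ρ : A →+* Module.End ℂ V) (hρ : Function.Injective ρ)
    (θ : A →+* ZMod 3) :
    ∃ (w : V) (χ : A →+* integralClosure ℤ ℂ) (𝔪' : Ideal (integralClosure ℤ ℂ)),
      w ≠ 0 ∧ (∀ t : A, ρ t w = ((χ t : integralClosure ℤ ℂ) : ℂ) • w) ∧ 𝔪'.IsMaximal ∧
      ((3 : ℕ) : integralClosure ℤ ℂ) ∈ 𝔪' ∧
      ∀ (t : A) (c : ℤ), θ t = (c : ZMod 3) → χ t - (c : integralClosure ℤ ℂ) ∈ 𝔪' := by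
  have : (RingHom.ker θ).IsPrime := RingHom.ker_isPrime θ
  obtain ⟨w, χ, 𝔪', hw, heig, hmax, hle⟩ := exists_eigenvector_lift ρ hρ (RingHom.ker θ)
  refine ⟨w, χ, 𝔪', hw, heig, hmax, ?_, ?_⟩
  · have h3 : ((3 : ℕ) : A) ∈ RingHom.ker θ := by
      rw [RingHom.mem_ker, map_natCast]
      exact (ZMod.natCast_self 3)
    have := hle h3
    rw [Ideal.mem_comap, map_natCast] at this
    exact this
  · intro t c htc
    have hmem : t - (c : A) ∈ RingHom.ker θ := by
      rw [RingHom.mem_ker, map_sub, map_intCast, htc, sub_self]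
    have := hle hmem
    rw [Ideal.mem_comap, map_sub, map_intCast] at this
    exact this

end Lift

end Fermat.Agent.S49
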