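import Mathlib

set_option autoImplicit false

namespace Fermat.Agent.S49.H25

section CommonEigenvector

variable {K V : Type*} [Field K] [IsAlgClosed K] [AddCommGroup V] [Module K V]
  [FiniteDimensional K V]

/-- A commuting family of endomorphisms stabilising a nonzero subspace `W` of a finite-dimensional
space over an algebraically closed field has a common eigenvector in `W`. -/
theorem exists_common_eigenvector (𝒜 : Set (Module.End K V))
    (hcomm : ∀ s ∈ 𝒜, ∀ t ∈ 𝒜, Commute s t) :
    ∀ (n : ℕ) (W : Submodule K V), Module.finrank K W = n → W ≠ ⊥ →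
      (∀ t ∈ 𝒜, ∀ x ∈ W, t x ∈ W) →
      ∃ w ∈ W, w ≠ 0 ∧ ∀ t ∈ 𝒜, ∃ c : K, t w = c • w := by
  intro n
  induction n using Nat.strong_induction_on with
  | _ n ih =>
    intro W hWn hW hinv
    by_cases hscal : ∀ t ∈ 𝒜, ∃ c : K, ∀ x ∈ W, t x = c • x
    · obtain ⟨w, hwW, hw0⟩ := Submodule.exists_mem_ne_zero_of_ne_bot hW
      refine ⟨w, hwW, hw0, fun t ht => ?_⟩
      obtain ⟨c, hc⟩ := hscal t ht
      exact ⟨c, hc w hwW⟩
    · push Not at hscal
      obtain ⟨t, ht, htns⟩ := hscal
      -- restrict t to W
      let tW : Module.End K W := t.restrict (hinv t ht)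
      have : Nontrivial W := Submodule.nontrivial_iff_ne_bot.mpr hW
      obtain ⟨μ, hμ⟩ := Module.End.exists_eigenvalue tW
      obtain ⟨v, hv⟩ := hμ.exists_hasEigenvector
      have hv0 : (v : V) ≠ 0 := fun h0 => hv.2 (Subtype.ext h0)
      have hvt : t (v : V) = μ • (v : V) := by
        have := hv.apply_eq_smul
        have h2 := congrArg (Subtype.val) this
        simpa [tW] using h2
      -- the new subspace
      let W' : Submodule K V := W ⊓ LinearMap.ker (t - μ • (1 : Module.End K V))
      have hW'le : W' ≤ W := inf_le_left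
      have hvW' : (v : V) ∈ W' := by
        refine ⟨v.2, ?_⟩
        simp [LinearMap.mem_ker, hvt]
      have hW'ne : W' ≠ ⊥ := fun hb => hv0 (by
        have : (v : V) ∈ (⊥ : Submodule K V) := hb ▸ hvW'
        simpa using this)
      obtain ⟨x, hxW, hxne⟩ := htns μ
      have hlt : W' < W := by
        refine lt_of_le_of_ne hW'le fun heq => hxne ?_
        have hx' : x ∈ W' := heq ▸ hxW
        have := hx'.2
        simpa [LinearMap.mem_ker, sub_eq_zero] using this
      have hfr : Module.finrank K W' < n := hWn ▸ Submodule.finrank_lt_finrank_of_lt hlt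
      have hinv' : ∀ s ∈ 𝒜, ∀ y ∈ W', s y ∈ W' := by
        intro s hs y hy
        refine ⟨hinv s hs y hy.1, ?_⟩
        have hy2 : t y = μ • y := by
          have := hy.2
          simpa [LinearMap.mem_ker, sub_eq_zero] using this
        have hc : t (s y) = s (t y) := by
          have := hcomm t ht s hs
          have h2 := congrArg (fun f : Module.End K V => f y) this.eq
          simpa using h2
        simp [LinearMap.mem_ker, hc, hy2]
      obtain ⟨w, hwW', hw0, hw⟩ := ih _ hfr W' rfl hW'ne hinv'
      exact ⟨w, hW'le hwW', hw0, hw⟩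

end CommonEigenvector

section Character

variable {K V A : Type*} [Field K] [IsAlgClosed K] [AddCommGroup V] [Module K V]
  [FiniteDimensional K V] [CommRing A]

/-- Given a commutative ring acting on a finite-dimensional space over an algebraically closed field
and a prime ideal `P` containing the kernel of the action, there is a common eigenvector whose
character has kernel inside `P`. -/
theorem exists_character (φ : A →+* Module.End K V) (P : Ideal A) [hP : P.IsPrime]
    (hker : RingHom.ker φ ≤ P) :
    ∃ (w : V) (χ : A →+* K), w ≠ 0 ∧ (∀ a, φ a w = χ a • w) ∧ RingHom.ker χ ≤ P := by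
  classical
  -- choose `s ∉ P` with minimal rank
  let r : A → ℕ := fun a => Module.finrank K (LinearMap.range (φ a))
  let S : Set A := {a | a ∉ P}
  have hSne : S.Nonempty := ⟨1, fun h => hP.ne_top ((Ideal.eq_top_iff_one P).mpr h)⟩
  let s := Function.argminOn r S hSne
  have hsS : s ∉ P := Function.argminOn_mem r S hSne
  have hmin : ∀ a, a ∉ P → r s ≤ r a := fun a ha => Function.argminOn_le r S ha
  let W : Submodule K V := LinearMap.range (φ s)
  have hφs : φ s ≠ 0 := fun h0 => hsS (hker (by simpa [RingHom.mem_ker] using h0))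
  have hW : W ≠ ⊥ := by
    intro hb
    exact hφs (LinearMap.range_eq_bot.mp hb)
  have hcommA : ∀ a b : A, φ a * φ b = φ b * φ a := fun a b => by
    rw [← map_mul, ← map_mul, mul_comm]
  have hinvW : ∀ a : A, ∀ x ∈ W, φ a x ∈ W := by
    rintro a x ⟨y, rfl⟩
    refine ⟨φ a y, ?_⟩
    have := congrArg (fun f : Module.End K V => f y) (hcommA s a)
    simpa using this
  obtain ⟨w, hwW, hw0, hw⟩ := exists_common_eigenvector (Set.range φ)
    (by rintro _ ⟨a, rfl⟩ _ ⟨b, rfl⟩; exact hcommA a b) _ W rfl hW
    (by rintro _ ⟨a, rfl⟩ x hx; exact hinvW a x hx)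
  have hw' : ∀ a : A, ∃ c : K, φ a w = c • w := fun a => hw (φ a) ⟨a, rfl⟩
  choose χ hχ using hw'
  have hinj : Function.Injective fun c : K => c • w := smul_left_injective K hw0
  let χr : A →+* K :=
    { toFun := χ
      map_one' := hinj (by simp [← hχ])
      map_mul' := fun a b => hinj (by
        simp only
        rw [← hχ, map_mul, Module.End.mul_apply, hχ b, map_smul, hχ a, smul_smul, mul_comm])
      map_zero' := hinj (by simp [← hχ])
      map_add' := fun a b => hinj (by
        simp only
        rw [← hχ, map_add, LinearMap.add_apply, hχ a, hχ b, add_smul]) }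
  refine ⟨w, χr, hw0, hχ, ?_⟩
  intro a ha
  by_contra haP
  have hχa : χ a = 0 := RingHom.mem_ker.mp ha
  -- `φ a` maps `W` onto `W` by minimality
  have hasP : a * s ∉ P := fun h => (hP.mem_or_mem h).elim haP hsS
  have hrange : LinearMap.range (φ (a * s)) = W.map (φ a) := by
    rw [map_mul, Module.End.mul_eq_comp, LinearMap.range_comp]
  have hle : W.map (φ a) ≤ W := by
    rintro _ ⟨x, hx, rfl⟩
    exact hinvW a x hx
  have hrk : Module.finrank K W ≤ Module.finrank K (W.map (φ a)) := by
    have := hmin (a * s) hasP
    simp only [r] at this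
    rw [hrange] at this
    exact this
  have heq : W.map (φ a) = W := Submodule.eq_of_le_of_finrank_le hle hrk
  -- so the restriction is surjective, hence injective
  let aW : Module.End K W := (φ a).restrict (hinvW a)
  have hsurj : Function.Surjective aW := by
    rintro ⟨y, hy⟩
    have hy' : y ∈ W.map (φ a) := by rw [heq]; exact hy
    obtain ⟨x, hx, rfl⟩ := hy'
    exact ⟨⟨x, hx⟩, Subtype.ext rfl⟩
  have hinjW : Function.Injective aW := LinearMap.injective_iff_surjective.mpr hsurj
  have h0 : aW ⟨w, hwW⟩ = 0 := by
    apply Subtype.ext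
    simp [aW, hχ, hχa]
  have : (⟨w, hwW⟩ : W) = 0 := hinjW (by rw [h0, map_zero])
  exact hw0 (congrArg Subtype.val this)

end Character

end Fermat.Agent.S49.H25
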