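import Mathlib
import Fermat.Prelude.Def_CuspForm_IntegralLattice
import Fermat.Prelude.Def_FormalHecke_Eigensystem
import Fermat.Prelude.Def_ModularForm_EisensteinChiNegThree
import Fermat.Agent.S49.H25QCoeff

set_option autoImplicit false
open CuspForm EisensteinWeightOne CongruenceSubgroup ModularFormClass

namespace Fermat.Agent.S49.H25

/-- The weight-one Eisenstein series is `1` modulo `3`. -/
theorem e1Chi3In_int_eq :
    e1Chi3In ℤ = 1 + PowerSeries.C (3 : ℤ) *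
      PowerSeries.mk (fun n => if n = 0 then 0 else 2 * sigmaChi n) := by
  ext n
  simp only [e1Chi3In, e1Chi3, PowerSeries.coeff_map, PowerSeries.coeff_mk, map_add,
    PowerSeries.coeff_one, PowerSeries.coeff_C_mul, Int.coe_castRingHom, Int.cast_id]
  split_ifs <;> ring

theorem bridge_coeff (a : ℕ → ℤ) (n : ℕ) :
    (3 : ℤ) ∣ (bridgeProduct a).coeff n - a n := by
  unfold bridgeProduct
  rw [e1Chi3In_int_eq, mul_add, mul_one, map_add, PowerSeries.coeff_mk, mul_left_comm,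
    PowerSeries.coeff_C_mul]
  exact ⟨(PowerSeries.coeff n) (PowerSeries.mk a *
    PowerSeries.mk fun n => if n = 0 then 0 else 2 * sigmaChi n), by ring⟩

theorem chiNegThree_mod3 (ℓ : ℕ) : (3 : ℤ) ∣ (ℓ : ℤ) - chiNegThree ℓ := by
  unfold chiNegThree
  split_ifs <;> omega

variable {N : ℕ}

/-- The data extracted from lattice realisation. -/
theorem realized_data {a : ℕ → ℤ} (hreal : CuspForm.IsLatticeRealized N a) :
    ∃ (f₀ : CuspForm (Gamma0 N) 2) (af : ℕ → ℤ), f₀ ∈ intLattice N 2 ∧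
      (∀ n, (af n : ℂ) = qCoeff f₀ n) ∧ ∀ n, (3 : ℤ) ∣ af n - a n := by
  obtain ⟨f₀, hf₀, af, haf, h3⟩ := hreal
  refine ⟨f₀, af, qIntegralSet_subset_intLattice hf₀, haf, fun n => ?_⟩
  have := dvd_add (h3 n) (bridge_coeff a n)
  simpa using this

/-- The mod-3 Hecke congruence for the realising form at a prime away from the level. -/
theorem hecke_congr {a af : ℕ → ℤ}
    (heig : FormalHecke.IsEigensystem
      (fun ℓ => if ℓ ∣ N then 0 else ((chiNegThree ℓ : ℤ) : ℤ)) a)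
    (h3 : ∀ n, (3 : ℤ) ∣ af n - a n) {ℓ : ℕ} (hℓ : ℓ.Prime) (hℓN : ¬ ℓ ∣ N) (n : ℕ) :
    (3 : ℤ) ∣ af (n * ℓ) + (if ℓ ∣ n then (ℓ : ℤ) * af (n / ℓ) else 0) - a ℓ * af n := by
  have hrel := heig.2 ℓ hℓ n
  simp only [if_neg hℓN] at hrel
  obtain ⟨k1, hk1⟩ := h3 (n * ℓ)
  obtain ⟨k2, hk2⟩ := h3 n
  obtain ⟨k3, hk3⟩ := h3 (n / ℓ)
  obtain ⟨k4, hk4⟩ := chiNegThree_mod3 ℓ
  rw [mul_comm ℓ n] at hrel
  by_cases hd : ℓ ∣ n
  · rw [if_pos hd] at hrel ⊢
    refine ⟨k1 + k4 * af (n / ℓ) + chiNegThree ℓ * k3 - a ℓ * k2, ?_⟩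
    linear_combination hk1 + af (n / ℓ) * hk4 + chiNegThree ℓ * hk3 - a ℓ * hk2 + hrel
  · rw [if_neg hd] at hrel ⊢
    refine ⟨k1 - a ℓ * k2, ?_⟩
    linear_combination hk1 - a ℓ * hk2 + hrel

end Fermat.Agent.S49.H25
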