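import Mathlib
import Fermat.Prelude.Def_CuspForm_HeckeLocal
import Fermat.Agent.S49.H25LinAlg
import Fermat.Agent.S49.H25Mod3

set_option autoImplicit false
open CuspForm EisensteinWeightOne CongruenceSubgroup ModularFormClass

namespace Fermat.Agent.S49.H25

variable {N : ℕ} [NeZero N]

/-- The ideal of Hecke operators sending `f₀` into `3 L`. -/
def congrIdeal (f₀ : CuspForm (Gamma0 N) 2) : Ideal (heckeAlgebra N 2 (∅ : Set ℕ)) where
  carrier := {t | ∃ g ∈ intLattice N 2,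
    (t : Module.End ℂ (CuspForm (Gamma0 N) 2)) f₀ = (3 : ℂ) • g}
  add_mem' := by
    rintro s t ⟨g, hg, hs⟩ ⟨g', hg', ht⟩
    refine ⟨g + g', add_mem hg hg', ?_⟩
    rw [Subalgebra.coe_add, LinearMap.add_apply, hs, ht, smul_add]
  zero_mem' := ⟨0, zero_mem _, by simp⟩
  smul_mem' := by
    rintro c t ⟨g, hg, ht⟩
    refine ⟨(c : Module.End ℂ (CuspForm (Gamma0 N) 2)) g,
      mem_intLattice_of_mem_heckeAlgebra one_le_two c.2 hg, ?_⟩
    rw [smul_eq_mul, Subalgebra.coe_mul, Module.End.mul_apply, ht, map_smul]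

theorem mem_congrIdeal {f₀ : CuspForm (Gamma0 N) 2} {t : heckeAlgebra N 2 (∅ : Set ℕ)} :
    t ∈ congrIdeal f₀ ↔ ∃ g ∈ intLattice N 2,
      (t : Module.End ℂ (CuspForm (Gamma0 N) 2)) f₀ = (3 : ℂ) • g := Iff.rfl

end Fermat.Agent.S49.H25

namespace Fermat.Agent.S49.H25

variable {N : ℕ} [NeZero N]

theorem one_not_mem_congrIdeal {f₀ : CuspForm (Gamma0 N) 2} {a af : ℕ → ℤ}
    (haf : ∀ n, (af n : ℂ) = qCoeff f₀ n) (h3 : ∀ n, (3 : ℤ) ∣ af n - a n) (ha1 : a 1 = 1) :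
    (1 : heckeAlgebra N 2 (∅ : Set ℕ)) ∉ congrIdeal f₀ := by
  rintro ⟨g, hg, h1⟩
  rw [Subalgebra.coe_one, Module.End.one_apply] at h1
  obtain ⟨m, hm⟩ := intCoeff_of_mem_intLattice hg 1
  have h2 : qCoeff f₀ 1 = (3 : ℂ) * qCoeff g 1 := by rw [h1, qCoeff_smul]
  rw [← haf 1, hm] at h2
  have h4 : af 1 = 3 * m := by exact_mod_cast h2
  obtain ⟨k, hk⟩ := h3 1
  rw [ha1, h4] at hk
  omega

theorem three_mem_congrIdeal {f₀ : CuspForm (Gamma0 N) 2} (hf₀ : f₀ ∈ intLattice N 2) :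
    ((3 : ℕ) : heckeAlgebra N 2 (∅ : Set ℕ)) ∈ congrIdeal f₀ := by
  refine ⟨f₀, hf₀, ?_⟩
  have h1 : (((3 : ℕ) : heckeAlgebra N 2 (∅ : Set ℕ)) : Module.End ℂ (CuspForm (Gamma0 N) 2)) =
      ((3 : ℕ) : Module.End ℂ (CuspForm (Gamma0 N) 2)) := rfl
  rw [h1, Module.End.natCast_apply, ← Nat.cast_smul_eq_nsmul ℂ]
  norm_num

theorem T_sub_mem_congrIdeal {f₀ : CuspForm (Gamma0 N) 2} {a af : ℕ → ℤ}
    (haf : ∀ n, (af n : ℂ) = qCoeff f₀ n)
    (heig : FormalHecke.IsEigensystem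
      (fun ℓ => if ℓ ∣ N then 0 else ((chiNegThree ℓ : ℤ) : ℤ)) a)
    (h3 : ∀ n, (3 : ℤ) ∣ af n - a n) {ℓ : ℕ} (hℓ : ℓ.Prime) (hℓN : ¬ ℓ ∣ N) :
    (heckeAlgebra.T hℓ hℓN (Set.notMem_empty _) - ((a ℓ : ℤ) : heckeAlgebra N 2 (∅ : Set ℕ)))
      ∈ congrIdeal f₀ := by
  -- the candidate quotient
  let g : CuspForm (Gamma0 N) 2 := (3 : ℂ)⁻¹ • (heckeTLin 2 hℓ hℓN f₀ - (a ℓ : ℂ) • f₀)
  have hg : g ∈ intLattice N 2 := by
    refine mem_intLattice_of_intCoeff fun n => ?_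
    obtain ⟨k, hk⟩ := hecke_congr heig h3 hℓ hℓN n
    refine ⟨k, ?_⟩
    simp only [g, qCoeff_smul, qCoeff_sub, qCoeff_heckeTLin, ← haf]
    have hk' : ((af (n * ℓ) + (if ℓ ∣ n then (ℓ : ℤ) * af (n / ℓ) else 0) - a ℓ * af n : ℤ) : ℂ)
        = ((3 * k : ℤ) : ℂ) := by rw [hk]
    push_cast at hk'
    have h5 : ((af (n * ℓ) : ℂ) + (if ℓ ∣ n then (ℓ : ℂ) * (af (n / ℓ) : ℂ) else 0)
        - (a ℓ : ℂ) * (af n : ℂ)) = 3 * (k : ℂ) := by
      rw [← hk']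
    rw [h5]
    field_simp
  refine ⟨g, hg, ?_⟩
  have h1 : (((a ℓ : ℤ) : heckeAlgebra N 2 (∅ : Set ℕ)) : Module.End ℂ (CuspForm (Gamma0 N) 2)) =
      ((a ℓ : ℤ) : Module.End ℂ (CuspForm (Gamma0 N) 2)) := rfl
  rw [Subalgebra.coe_sub, heckeAlgebra.coe_T, h1, LinearMap.sub_apply, Module.End.intCast_apply,
    ← Int.cast_smul_eq_zsmul ℂ]
  simp only [g]
  rw [smul_smul, mul_inv_cancel₀ (by norm_num : (3 : ℂ) ≠ 0), one_smul]

end Fermat.Agent.S49.H25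

namespace Fermat.Agent.S49.H25

variable {N : ℕ} [NeZero N]

omit [NeZero N] in
theorem hasIntegralStructure_of_hasIntegralBasis (h : CuspForm.HasIntegralBasis N) :
    CuspForm.HasIntegralStructure N 2 := by
  unfold CuspForm.HasIntegralStructure
  unfold CuspForm.HasIntegralBasis at h
  refine top_le_iff.mp ?_
  rw [← h]
  exact Submodule.span_mono fun f hf => qIntegralSet_subset_intLattice hf

theorem finiteDimensional_of_hasIntegralBasis (h : CuspForm.HasIntegralBasis N) :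
    FiniteDimensional ℂ (CuspForm (Gamma0 N) 2) := by
  have hint := hasIntegralStructure_of_hasIntegralBasis h
  unfold CuspForm.HasIntegralStructure at hint
  obtain ⟨s, hs⟩ := intLattice_fg N 2
  have : Submodule.span ℂ (s : Set (CuspForm (Gamma0 N) 2)) = ⊤ := by
    rw [← hint, ← hs, Submodule.span_span_of_tower]
  exact Module.Finite.of_fg_top ⟨s, this⟩

end Fermat.Agent.S49.H25

namespace Fermat.Agent.S49.H25

variable {N : ℕ} [NeZero N]

theorem moduleFinite_heckeAlgebra (h : CuspForm.HasIntegralBasis N) :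
    Module.Finite ℤ (heckeAlgebra N 2 (∅ : Set ℕ)) := by
  have hint := hasIntegralStructure_of_hasIntegralBasis h
  have hinj := (latticeRestrictHom_bijective N (∅ : Set ℕ) hint).1
  exact Module.Finite.of_injective (latticeRestrictHom N (∅ : Set ℕ)).toLinearMap hinj

theorem main {a : ℕ → ℤ} (h : CuspForm.HasIntegralBasis N)
    (heig : FormalHecke.IsEigensystem
      (fun ℓ => if ℓ ∣ N then 0 else ((chiNegThree ℓ : ℤ) : ℤ)) a)
    (hreal : CuspForm.IsLatticeRealized N a) :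
    ∃ (f : CuspForm (Gamma0 N) 2) (_ : f.IsNormalizedEigenform)
      (𝔪' : Ideal (integralClosure ℤ ℂ)), 𝔪'.IsMaximal ∧
      ((3 : ℕ) : integralClosure ℤ ℂ) ∈ 𝔪' ∧
      ∀ (ℓ : ℕ) (_ : ℓ.Prime) (_ : ¬ ℓ ∣ N),
        ∃ c : integralClosure ℤ ℂ, (c : ℂ) = ModularFormClass.qCoeff f ℓ ∧
          c - (a ℓ : integralClosure ℤ ℂ) ∈ 𝔪' := by
  classical
  obtain ⟨f₀, af, hf₀, haf, h3⟩ := realized_data hreal
  have := finiteDimensional_of_hasIntegralBasis h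
  have := moduleFinite_heckeAlgebra h
  -- the maximal ideal
  have hne : congrIdeal f₀ ≠ ⊤ := fun htop =>
    one_not_mem_congrIdeal haf h3 heig.1 ((Ideal.eq_top_iff_one _).mp htop)
  obtain ⟨𝔫, h𝔫max, h𝔫le⟩ := Ideal.exists_le_maximal _ hne
  have := h𝔫max
  -- the character
  let φ : heckeAlgebra N 2 (∅ : Set ℕ) →+* Module.End ℂ (CuspForm (Gamma0 N) 2) :=
    (heckeAlgebra N 2 (∅ : Set ℕ)).val.toRingHom
  have hφker : RingHom.ker φ ≤ 𝔫 := by
    intro t ht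
    have : t = 0 := Subtype.ext (RingHom.mem_ker.mp ht)
    rw [this]
    exact zero_mem _
  obtain ⟨w, χ, hw0, hχ, hχker⟩ := exists_character φ 𝔫 hφker
  -- integrality
  have hχint : ∀ t, χ t ∈ integralClosure ℤ ℂ := fun t =>
    (Algebra.IsIntegral.isIntegral (R := ℤ) t).map χ.toIntAlgHom
  let χ' : heckeAlgebra N 2 (∅ : Set ℕ) →+* integralClosure ℤ ℂ :=
    χ.codRestrict (integralClosure ℤ ℂ) hχint
  have hχ'coe : ∀ t, ((χ' t : integralClosure ℤ ℂ) : ℂ) = χ t := fun _ => rfl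
  -- lying over
  letI : Algebra (heckeAlgebra N 2 (∅ : Set ℕ)) (integralClosure ℤ ℂ) := χ'.toAlgebra
  have halg : ∀ t, algebraMap (heckeAlgebra N 2 (∅ : Set ℕ)) (integralClosure ℤ ℂ) t = χ' t :=
    fun _ => rfl
  have : Algebra.IsIntegral (heckeAlgebra N 2 (∅ : Set ℕ)) (integralClosure ℤ ℂ) :=
    ⟨fun x => (Algebra.IsIntegral.isIntegral (R := ℤ) x).tower_top⟩
  have hker' : RingHom.ker (algebraMap (heckeAlgebra N 2 (∅ : Set ℕ)) (integralClosure ℤ ℂ)) ≤ 𝔫 := by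
    intro t ht
    apply hχker
    rw [RingHom.mem_ker] at ht ⊢
    rw [halg] at ht
    rw [← hχ'coe, ht]
    rfl
  obtain ⟨Q, hQmax, hQ⟩ := Ideal.exists_ideal_over_maximal_of_isIntegral 𝔫 hker'
  -- the eigenform
  let lam : ℕ → ℂ := fun p =>
    if hp : p.Prime then
      (if hpN : p ∣ N then χ (heckeAlgebra.U hp hpN (Set.notMem_empty _))
        else χ (heckeAlgebra.T hp hpN (Set.notMem_empty _)))
    else 0
  have heigen : IsHeckeEigen w lam := by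
    refine ⟨fun p hp hpN => ?_, fun p hp hpN => ?_⟩
    · have : lam p = χ (heckeAlgebra.T hp hpN (Set.notMem_empty _)) := by
        simp only [lam, dif_pos hp, dif_neg hpN]
      rw [this, ← hχ]
      rfl
    · have : lam p = χ (heckeAlgebra.U hp hpN (Set.notMem_empty _)) := by
        simp only [lam, dif_pos hp, dif_pos hpN]
      rw [this, ← hχ]
      rfl
  obtain ⟨f, hf, hflam⟩ := heigen.normalize hw0
  refine ⟨f, hf, Q, hQmax, ?_, fun ℓ hℓ hℓN => ?_⟩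
  · have h1 : ((3 : ℕ) : heckeAlgebra N 2 (∅ : Set ℕ)) ∈ 𝔫 := h𝔫le (three_mem_congrIdeal hf₀)
    rw [← hQ, Ideal.mem_comap, map_natCast] at h1
    exact h1
  · refine ⟨χ' (heckeAlgebra.T hℓ hℓN (Set.notMem_empty _)), ?_, ?_⟩
    · rw [hχ'coe, hflam ℓ hℓ]
      simp only [lam, dif_pos hℓ, dif_neg hℓN]
    · have h1 := h𝔫le (T_sub_mem_congrIdeal haf heig h3 hℓ hℓN)
      rw [← hQ, Ideal.mem_comap, map_sub, map_intCast, halg] at h1
      exact h1

end Fermat.Agent.S49.H25
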