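-- T-S49 (helper3): final assembly of the Deligne-Serre lifting lemma from
--   * a mod-3 character `θ` of the full Hecke algebra with `θ(T_ℓ) = a ℓ` (ModThree),
--   * finiteness of the Hecke algebra over `ℤ` and finite-dimensionality of the space of forms,
--   * the abstract lifting lemma (CommAlg) and the q-expansion bridge (QExp).
import Fermat.Agent.S49.QExp
import Fermat.Agent.S49.CommAlg

set_option autoImplicit false

open CuspForm CongruenceSubgroup ModularFormClass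

namespace Fermat.Agent.S49

theorem assembly {N : ℕ} [NeZero N] {a : ℕ → ℤ}
    [FiniteDimensional ℂ (CuspForm (Gamma0 N) 2)]
    [Module.Finite ℤ ↥(CuspForm.heckeAlgebra N 2 (∅ : Set ℕ))]
    (θ : ↥(CuspForm.heckeAlgebra N 2 (∅ : Set ℕ)) →+* ZMod 3)
    (hθT : ∀ (ℓ : ℕ) (hℓ : ℓ.Prime) (hℓN : ¬ ℓ ∣ N),
      θ (CuspForm.heckeAlgebra.T hℓ hℓN (Set.notMem_empty ℓ)) = (a ℓ : ZMod 3)) :
    ∃ (f : CuspForm (Gamma0 N) 2) (_ : f.IsNormalizedEigenform)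
      (𝔪' : Ideal (integralClosure ℤ ℂ)), 𝔪'.IsMaximal ∧
      ((3 : ℕ) : integralClosure ℤ ℂ) ∈ 𝔪' ∧
      ∀ (ℓ : ℕ) (_ : ℓ.Prime) (_ : ¬ ℓ ∣ N),
        ∃ c : integralClosure ℤ ℂ, (c : ℂ) = ModularFormClass.qCoeff f ℓ ∧
          c - (a ℓ : integralClosure ℤ ℂ) ∈ 𝔪' := by
  classical
  let ρ : ↥(CuspForm.heckeAlgebra N 2 (∅ : Set ℕ)) →+*
      Module.End ℂ (CuspForm (Gamma0 N) 2) :=
    (CuspForm.heckeAlgebra N 2 (∅ : Set ℕ)).val.toRingHom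
  have hρ : Function.Injective ρ := Subtype.val_injective
  obtain ⟨w, χ, 𝔪', hw, hχ, hmax, h3, hcong⟩ := exists_eigenvector_lift_of_char ρ hρ θ
  let lam : ℕ → ℂ := fun ℓ =>
    if hℓ : ℓ.Prime then
      (if hℓN : ℓ ∣ N then
        ((χ (CuspForm.heckeAlgebra.U hℓ hℓN (Set.notMem_empty ℓ)) : integralClosure ℤ ℂ) : ℂ)
      else ((χ (CuspForm.heckeAlgebra.T hℓ hℓN (Set.notMem_empty ℓ)) : integralClosure ℤ ℂ) : ℂ))
    else 0
  have hT : ∀ (ℓ : ℕ) (hℓ : ℓ.Prime) (hℓN : ¬ ℓ ∣ N),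
      CuspForm.heckeTLin 2 hℓ hℓN w = lam ℓ • w := by
    intro ℓ hℓ hℓN
    have := hχ (CuspForm.heckeAlgebra.T hℓ hℓN (Set.notMem_empty ℓ))
    simpa [lam, hℓ, hℓN, ρ] using this
  have hU : ∀ (q : ℕ) (_ : q.Prime) (hqN : q ∣ N), CuspForm.heckeULin 2 hqN w = lam q • w := by
    intro q hq hqN
    have := hχ (CuspForm.heckeAlgebra.U hq hqN (Set.notMem_empty q))
    simpa [lam, hq, hqN, ρ] using this
  obtain ⟨f, hf, hfl⟩ := exists_normalizedEigenform_of_eigenvector w hw lam hT hU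
  refine ⟨f, hf, 𝔪', hmax, h3, fun ℓ hℓ hℓN =>
    ⟨χ (CuspForm.heckeAlgebra.T hℓ hℓN (Set.notMem_empty ℓ)), ?_, hcong _ _ (hθT ℓ hℓ hℓN)⟩⟩
  rw [hfl ℓ hℓ]
  simp [lam, hℓ, hℓN]

end Fermat.Agent.S49
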