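-- T-S49 (helper16): glue between the modular-forms side and the abstract lifting lemma.
-- (M1) integral structure from integral basis, (M2) finite-dimensionality, (M3) the full Hecke
-- algebra is a finite `ℤ`-module, (M4) the mod-3 character of the Hecke algebra attached to a
-- lattice-realised formal eigensystem.
import Mathlib
import Fermat.Prelude.Def_CuspForm_IntegralLattice
import Fermat.Prelude.Def_FormalHecke_Eigensystem
import Fermat.Prelude.Def_ModularForm_EisensteinChiNegThree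
import Fermat.Prelude.Def_FLTPrelim_Modularity
import Fermat.Prelude.Def_CuspForm_HeckeLocal
import Fermat.Agent.S49.Formal
import Fermat.Agent.S49.QExp

set_option autoImplicit false

open CuspForm ModularFormClass CongruenceSubgroup EisensteinWeightOne

namespace Fermat.Agent.S49

variable {N : ℕ}

/-! ### (M1)–(M3) -/

theorem intLattice_gen_eq_qIntegralSet :
    {f : CuspForm (Gamma0 N) 2 | ∀ n : ℕ, ∃ m : ℤ, qCoeff f n = (m : ℂ)} = qIntegralSet N := by
  ext f
  rw [mem_qIntegralSet_iff]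
  exact forall_congr' fun n => exists_congr fun m => eq_comm

theorem intLattice_eq_qIntegralLattice : intLattice N 2 = qIntegralLattice N := by
  unfold intLattice qIntegralLattice
  rw [intLattice_gen_eq_qIntegralSet]

theorem mem_intLattice_iff (f : CuspForm (Gamma0 N) 2) :
    f ∈ intLattice N 2 ↔ f ∈ qIntegralSet N := by
  rw [intLattice_eq_qIntegralLattice, mem_qIntegralLattice_iff]

theorem hasIntegralStructure_of_hasIntegralBasis (h : CuspForm.HasIntegralBasis N) :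
    CuspForm.HasIntegralStructure N 2 := by
  unfold CuspForm.HasIntegralStructure
  unfold CuspForm.HasIntegralBasis at h
  rw [eq_top_iff, ← h]
  exact Submodule.span_mono fun f hf => (mem_intLattice_iff f).mpr hf

theorem finiteDimensional_cuspForm [NeZero N] (h : CuspForm.HasIntegralBasis N) :
    FiniteDimensional ℂ (CuspForm (Gamma0 N) 2) := by
  have hs := hasIntegralStructure_of_hasIntegralBasis h
  unfold CuspForm.HasIntegralStructure at hs
  obtain ⟨s, hs'⟩ := CuspForm.intLattice_fg N 2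
  rw [← hs'] at hs
  have hspan : Submodule.span ℂ
      ((Submodule.span ℤ (s : Set (CuspForm (Gamma0 N) 2)) : Submodule ℤ _) :
        Set (CuspForm (Gamma0 N) 2)) = Submodule.span ℂ (s : Set (CuspForm (Gamma0 N) 2)) :=
    Submodule.span_span_of_tower ℤ ℂ _
  rw [hspan] at hs
  exact Module.Finite.of_fg_top ⟨s, hs⟩

theorem heckeAlgebra_moduleFinite [NeZero N] (h : CuspForm.HasIntegralBasis N) :
    Module.Finite ℤ ↥(CuspForm.heckeAlgebra N 2 (∅ : Set ℕ)) := by
  have hs := hasIntegralStructure_of_hasIntegralBasis h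
  have e := AlgEquiv.ofBijective (latticeRestrictHom N (∅ : Set ℕ))
    (latticeRestrictHom_bijective N ∅ hs)
  exact Module.Finite.equiv e.symm.toLinearEquiv

/-! ### Forms all of whose coefficients are divisible by `3` -/

/-- All `q`-coefficients are (integers) divisible by `3`. -/
def Div3 (g : CuspForm (Gamma0 N) 2) : Prop :=
  ∀ n : ℕ, ∃ m : ℤ, qCoeff ⇑g n = (3 : ℂ) * (m : ℂ)

theorem div3_zero : Div3 (0 : CuspForm (Gamma0 N) 2) := fun n =>
  ⟨0, by rw [qCoeff_zero_form]; simp⟩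

theorem Div3.add {f g : CuspForm (Gamma0 N) 2} (hf : Div3 f) (hg : Div3 g) : Div3 (f + g) := by
  intro n
  obtain ⟨m₁, h₁⟩ := hf n
  obtain ⟨m₂, h₂⟩ := hg n
  exact ⟨m₁ + m₂, by rw [qCoeff_add, h₁, h₂]; push_cast; ring⟩

theorem Div3.sub {f g : CuspForm (Gamma0 N) 2} (hf : Div3 f) (hg : Div3 g) : Div3 (f - g) := by
  intro n
  obtain ⟨m₁, h₁⟩ := hf n
  obtain ⟨m₂, h₂⟩ := hg n
  exact ⟨m₁ - m₂, by rw [qCoeff_sub, h₁, h₂]; push_cast; ring⟩

theorem Div3.zsmul {f : CuspForm (Gamma0 N) 2} (hf : Div3 f) (c : ℤ) : Div3 (c • f) := by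
  intro n
  obtain ⟨m, hm⟩ := hf n
  exact ⟨c * m, by rw [qCoeff_zsmul, hm]; push_cast; ring⟩

theorem div3_three_zsmul {g : CuspForm (Gamma0 N) 2} (hg : g ∈ qIntegralSet N) :
    Div3 ((3 : ℤ) • g) := by
  intro n
  obtain ⟨m, hm⟩ := (mem_qIntegralSet_iff g).mp hg n
  exact ⟨m, by rw [qCoeff_zsmul, ← hm]; push_cast; ring⟩

theorem Div3.exists_eq {g : CuspForm (Gamma0 N) 2} (hg : Div3 g) :
    ∃ g' ∈ qIntegralSet N, g = (3 : ℤ) • g' :=
  exists_eq_zsmul_of_forall_dvd (d := 3) (by norm_num) fun n => by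
    obtain ⟨m, hm⟩ := hg n
    exact ⟨m, by rw [hm]; norm_num⟩

/-- Elements of the Hecke algebra preserve `q`-integrality. -/
theorem heckeAlgebra_apply_mem_qIntegralSet [NeZero N] {S : Set ℕ}
    {t : Module.End ℂ (CuspForm (Gamma0 N) 2)} (ht : t ∈ CuspForm.heckeAlgebra N 2 S)
    {f : CuspForm (Gamma0 N) 2} (hf : f ∈ qIntegralSet N) : t f ∈ qIntegralSet N :=
  (mem_intLattice_iff _).mp
    (CuspForm.mem_intLattice_of_mem_heckeAlgebra one_le_two ht ((mem_intLattice_iff f).mpr hf))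

/-- Elements of the Hecke algebra preserve divisibility by `3`. -/
theorem Div3.heckeAlgebra_apply [NeZero N] {S : Set ℕ}
    {t : Module.End ℂ (CuspForm (Gamma0 N) 2)} (ht : t ∈ CuspForm.heckeAlgebra N 2 S)
    {g : CuspForm (Gamma0 N) 2} (hg : Div3 g) : Div3 (t g) := by
  obtain ⟨g', hg', rfl⟩ := hg.exists_eq
  rw [map_zsmul]
  exact div3_three_zsmul (heckeAlgebra_apply_mem_qIntegralSet ht hg')

/-! ### (M4) the mod-3 character -/

theorem chiNegThree_cast_zmod (ℓ : ℕ) : ((chiNegThree ℓ : ℤ) : ZMod 3) = (ℓ : ZMod 3) := by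
  have h3 : (ℓ : ZMod 3) = ((ℓ % 3 : ℕ) : ZMod 3) := (ZMod.natCast_mod ℓ 3).symm
  rw [h3]
  unfold chiNegThree
  have hlt : ℓ % 3 < 3 := Nat.mod_lt _ (by norm_num)
  interval_cases h : ℓ % 3
  · simp
  · simp
  · simp; decide

section Character

variable [NeZero N] {a : ℕ → ℤ} {f0 : CuspForm (Gamma0 N) 2} {af : ℕ → ℤ}

/-- `T_ℓ f0 ≡ a_ℓ f0` coefficientwise modulo `3`. -/
theorem div3_heckeTLin_sub
    (heig : FormalHecke.IsEigensystem
      (fun ℓ => if ℓ ∣ N then 0 else ((chiNegThree ℓ : ℤ) : ℤ)) a)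
    (haf : ∀ n, (af n : ℂ) = qCoeff ⇑f0 n) (hcong : ∀ n, (3 : ℤ) ∣ af n - a n)
    {ℓ : ℕ} (hℓ : ℓ.Prime) (hℓN : ¬ ℓ ∣ N) :
    Div3 (CuspForm.heckeTLin 2 hℓ hℓN f0 - a ℓ • f0) := by
  intro n
  have hcong' : ∀ k, ((af k : ℤ) : ZMod 3) = ((a k : ℤ) : ZMod 3) := fun k => by
    have := (ZMod.intCast_zmod_eq_zero_iff_dvd (af k - a k) 3).mpr (hcong k)
    rw [Int.cast_sub, sub_eq_zero] at this
    exact this
  have hrel := heig.2 ℓ hℓ n
  simp only [if_neg hℓN] at hrel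
  have hZ : (3 : ℤ) ∣ af (n * ℓ) + (if ℓ ∣ n then (ℓ : ℤ) * af (n / ℓ) else 0) - a ℓ * af n := by
    refine (ZMod.intCast_zmod_eq_zero_iff_dvd _ 3).mp ?_
    have hrel' := congrArg (Int.cast : ℤ → ZMod 3) hrel
    rw [mul_comm ℓ n] at hrel'
    split_ifs at hrel' ⊢ with hdvd
    · push_cast at hrel' ⊢
      rw [hcong', hcong', hcong', ← hrel', chiNegThree_cast_zmod]
      ring
    · push_cast at hrel' ⊢
      rw [hcong', hcong', ← hrel']
      ring
  obtain ⟨m, hm⟩ := hZ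
  refine ⟨m, ?_⟩
  rw [qCoeff_sub, qCoeff_zsmul, qCoeff_heckeTLin]
  simp only [← haf]
  have hm' := congrArg (Int.cast : ℤ → ℂ) hm
  split_ifs at hm' ⊢ with hdvd
  · push_cast at hm'
    linear_combination hm'
  · push_cast at hm'
    linear_combination hm'

/-- `U_q f0 ≡ a_q f0` coefficientwise modulo `3`. -/
theorem div3_heckeULin_sub
    (heig : FormalHecke.IsEigensystem
      (fun ℓ => if ℓ ∣ N then 0 else ((chiNegThree ℓ : ℤ) : ℤ)) a)
    (haf : ∀ n, (af n : ℂ) = qCoeff ⇑f0 n) (hcong : ∀ n, (3 : ℤ) ∣ af n - a n)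
    {q : ℕ} (hq : q.Prime) (hqN : q ∣ N) :
    Div3 (CuspForm.heckeULin 2 hqN f0 - a q • f0) := by
  intro n
  have hcong' : ∀ k, ((af k : ℤ) : ZMod 3) = ((a k : ℤ) : ZMod 3) := fun k => by
    have := (ZMod.intCast_zmod_eq_zero_iff_dvd (af k - a k) 3).mpr (hcong k)
    rw [Int.cast_sub, sub_eq_zero] at this
    exact this
  have hrel := heig.2 q hq n
  simp only [if_pos hqN, zero_mul, add_zero] at hrel
  have hZ : (3 : ℤ) ∣ af (n * q) - a q * af n := by
    refine (ZMod.intCast_zmod_eq_zero_iff_dvd _ 3).mp ?_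
    have hrel' := congrArg (Int.cast : ℤ → ZMod 3) hrel
    rw [mul_comm q n] at hrel'
    push_cast at hrel' ⊢
    rw [hcong', hcong', hrel']
    ring
  obtain ⟨m, hm⟩ := hZ
  refine ⟨m, ?_⟩
  rw [qCoeff_sub, qCoeff_zsmul, qCoeff_heckeULin hq, ← haf, ← haf]
  have hm' := congrArg (Int.cast : ℤ → ℂ) hm
  push_cast at hm'
  linear_combination hm'

/-- Every element of the full Hecke algebra acts on `f0` as an integer, modulo `3`. -/
theorem exists_int_div3_sub
    (heig : FormalHecke.IsEigensystem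
      (fun ℓ => if ℓ ∣ N then 0 else ((chiNegThree ℓ : ℤ) : ℤ)) a)
    (haf : ∀ n, (af n : ℂ) = qCoeff ⇑f0 n) (hcong : ∀ n, (3 : ℤ) ∣ af n - a n)
    {t : Module.End ℂ (CuspForm (Gamma0 N) 2)}
    (ht : t ∈ CuspForm.heckeAlgebra N 2 (∅ : Set ℕ)) :
    ∃ c : ℤ, Div3 (t f0 - c • f0) := by
  unfold CuspForm.heckeAlgebra at ht
  induction ht using Algebra.adjoin_induction with
  | mem x hx =>
    rcases hx with ⟨ℓ, hℓ, hℓN, -, rfl⟩ | ⟨q, hqN, hq, -, rfl⟩
    · exact ⟨a ℓ, div3_heckeTLin_sub heig haf hcong hℓ hℓN⟩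
    · exact ⟨a q, div3_heckeULin_sub heig haf hcong hq hqN⟩
  | algebraMap r =>
    refine ⟨r, ?_⟩
    have : (algebraMap ℤ (Module.End ℂ (CuspForm (Gamma0 N) 2)) r) f0 = r • f0 := by
      rw [Algebra.algebraMap_eq_smul_one, LinearMap.smul_apply, Module.End.one_apply]
    rw [this, sub_self]
    exact div3_zero
  | add x y hx hy ihx ihy =>
    obtain ⟨c₁, h₁⟩ := ihx
    obtain ⟨c₂, h₂⟩ := ihy
    refine ⟨c₁ + c₂, ?_⟩
    have : (x + y) f0 - (c₁ + c₂) • f0 = (x f0 - c₁ • f0) + (y f0 - c₂ • f0) := by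
      rw [LinearMap.add_apply, add_smul]; abel
    rw [this]
    exact h₁.add h₂
  | mul x y hx hy ihx ihy =>
    obtain ⟨c₁, h₁⟩ := ihx
    obtain ⟨c₂, h₂⟩ := ihy
    refine ⟨c₁ * c₂, ?_⟩
    have : (x * y) f0 - (c₁ * c₂) • f0 = x (y f0 - c₂ • f0) + c₂ • (x f0 - c₁ • f0) := by
      rw [Module.End.mul_apply, map_sub, map_zsmul, smul_sub, mul_comm c₁ c₂, mul_smul]; abel
    rw [this]
    exact (h₂.heckeAlgebra_apply (S := (∅ : Set ℕ)) hx).add (h₁.zsmul c₂)

/-- The integer in `exists_int_div3_sub` is unique modulo `3`. -/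
theorem int_div3_sub_unique
    (ha1 : a 1 = 1)
    (haf : ∀ n, (af n : ℂ) = qCoeff ⇑f0 n) (hcong : ∀ n, (3 : ℤ) ∣ af n - a n)
    {g : CuspForm (Gamma0 N) 2} {c c' : ℤ}
    (h : Div3 (g - c • f0)) (h' : Div3 (g - c' • f0)) : (c : ZMod 3) = (c' : ZMod 3) := by
  have hd : Div3 ((c' - c) • f0) := by
    have : (c' - c) • f0 = (g - c • f0) - (g - c' • f0) := by rw [sub_smul]; abel
    rw [this]
    exact h.sub h'
  obtain ⟨m, hm⟩ := hd 1
  rw [qCoeff_zsmul, ← haf] at hm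
  have hm' : (c' - c) * af 1 = 3 * m := by exact_mod_cast hm
  have h1 : ((af 1 : ℤ) : ZMod 3) = 1 := by
    have := (ZMod.intCast_zmod_eq_zero_iff_dvd (af 1 - a 1) 3).mpr (hcong 1)
    rw [Int.cast_sub, sub_eq_zero, ha1, Int.cast_one] at this
    exact this
  have h2 := congrArg (Int.cast : ℤ → ZMod 3) hm'
  push_cast at h2
  rw [h1, mul_one, show (3 : ZMod 3) = 0 from by decide, zero_mul, sub_eq_zero] at h2
  exact h2.symm

/-- **(M4)** The mod-3 character of the full Hecke algebra attached to a lattice-realised formal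
eigensystem: `θ(T_ℓ) = a_ℓ mod 3`, `θ(U_q) = a_q mod 3`. -/
theorem exists_modThree_character
    (heig : FormalHecke.IsEigensystem
      (fun ℓ => if ℓ ∣ N then 0 else ((chiNegThree ℓ : ℤ) : ℤ)) a)
    (hreal : CuspForm.IsLatticeRealized N a) :
    ∃ θ : ↥(CuspForm.heckeAlgebra N 2 (∅ : Set ℕ)) →+* ZMod 3,
      (∀ (ℓ : ℕ) (hℓ : ℓ.Prime) (hℓN : ¬ ℓ ∣ N),
        θ (CuspForm.heckeAlgebra.T hℓ hℓN (Set.notMem_empty ℓ)) = (a ℓ : ZMod 3)) ∧
      (∀ (q : ℕ) (hq : q.Prime) (hqN : q ∣ N),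
        θ (CuspForm.heckeAlgebra.U hq hqN (Set.notMem_empty q)) = (a q : ZMod 3)) := by
  classical
  obtain ⟨f0, -, af, haf, hdvd⟩ := hreal
  have hcong : ∀ n, (3 : ℤ) ∣ af n - a n := fun n => by
    have := dvd_add (hdvd n) (three_dvd_coeff_bridgeProduct_sub a n)
    rwa [sub_add_sub_cancel] at this
  have ha1 : a 1 = 1 := heig.1
  have hex : ∀ t : ↥(CuspForm.heckeAlgebra N 2 (∅ : Set ℕ)),
      ∃ c : ℤ, Div3 ((t : Module.End ℂ (CuspForm (Gamma0 N) 2)) f0 - c • f0) :=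
    fun t => exists_int_div3_sub heig haf hcong t.2
  choose cf hcf using hex
  have hspec : ∀ (t : ↥(CuspForm.heckeAlgebra N 2 (∅ : Set ℕ))) (c : ℤ),
      Div3 ((t : Module.End ℂ (CuspForm (Gamma0 N) 2)) f0 - c • f0) →
        ((cf t : ℤ) : ZMod 3) = (c : ZMod 3) :=
    fun t c hc => int_div3_sub_unique ha1 haf hcong (hcf t) hc
  refine ⟨{ toFun := fun t => ((cf t : ℤ) : ZMod 3)
            map_one' := ?_, map_mul' := ?_, map_zero' := ?_, map_add' := ?_ }, ?_, ?_⟩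
  · rw [hspec 1 1, Int.cast_one]
    rw [OneMemClass.coe_one, Module.End.one_apply, one_smul, sub_self]
    exact div3_zero
  · intro s t
    rw [hspec (s * t) (cf s * cf t), Int.cast_mul]
    have : ((s * t : ↥(CuspForm.heckeAlgebra N 2 (∅ : Set ℕ))) :
          Module.End ℂ (CuspForm (Gamma0 N) 2)) f0 - (cf s * cf t) • f0 =
        (s : Module.End ℂ (CuspForm (Gamma0 N) 2))
          ((t : Module.End ℂ (CuspForm (Gamma0 N) 2)) f0 - cf t • f0) +
        cf t • ((s : Module.End ℂ (CuspForm (Gamma0 N) 2)) f0 - cf s • f0) := by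
      rw [MulMemClass.coe_mul, Module.End.mul_apply, map_sub, map_zsmul, smul_sub,
        mul_comm (cf s) (cf t), mul_smul]
      abel
    rw [this]
    exact ((hcf t).heckeAlgebra_apply s.2).add ((hcf s).zsmul (cf t))
  · rw [hspec 0 0, Int.cast_zero]
    rw [ZeroMemClass.coe_zero, LinearMap.zero_apply, zero_smul, sub_self]
    exact div3_zero
  · intro s t
    rw [hspec (s + t) (cf s + cf t), Int.cast_add]
    have : ((s + t : ↥(CuspForm.heckeAlgebra N 2 (∅ : Set ℕ))) :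
          Module.End ℂ (CuspForm (Gamma0 N) 2)) f0 - (cf s + cf t) • f0 =
        ((s : Module.End ℂ (CuspForm (Gamma0 N) 2)) f0 - cf s • f0) +
        ((t : Module.End ℂ (CuspForm (Gamma0 N) 2)) f0 - cf t • f0) := by
      rw [AddMemClass.coe_add, LinearMap.add_apply, add_smul]
      abel
    rw [this]
    exact (hcf s).add (hcf t)
  · intro ℓ hℓ hℓN
    exact hspec _ _ (div3_heckeTLin_sub heig haf hcong hℓ hℓN)
  · intro q hq hqN
    exact hspec _ _ (div3_heckeULin_sub heig haf hcong hq hqN)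

end Character

end Fermat.Agent.S49
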